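import Mathlib
import Fermat.Agent.PT.Glob.Core

/-!
# W3-PT / PT-GLOB, block GLOB-FI (first inequality): frozen sub-interfaces

Target of the block: `theorem ifaceFI : IfaceFI` (`Glob/Core.lean`).

Setting (naming of `Core.lean`): `K / L` Galois of prime degree `p`, `σ` a generator of
`Gal(K/L)`, `T` an admissible finite set of primes of `L`, `T' = placesAbove L K T`,
`E_L = T.unit L` (the `T`-units of `L`), `E_K = T'.unit K`.

The proof (file `FI/Asm.lean`):
* `Ĥ⁰(E_K) = E_L / N E_K` and `Ĥ¹(E_K)` have orders with `h0 * p = h1 * p ^ m`, `m` = number of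
  `v ∈ T` with only one prime of `K` above (`PT/Units/SUnitHerbrand.lean`);
* `h1 = 1` (`FIH1`);
* the target `P = ∏_{v ∈ T} Lˣ / (local norms at v)` of the residue map has `p ^ m` elements
  (`FILocalIndex`, `FISplit`);
* the kernel of the residue map on `E_L` is `E_L ∩ (everywhere local norms)` (`FIUnitNorm`);
* `E_L ∩ (global norms) = N E_K` (`FINormUnit`);
* `(everywhere local norms) ⊆ E_L · (global norms)` (`FILocalGlobal`).

Leaves (closed `Prop`s, all in the elementary language of `Core.lean`):

local:
* `FILocalIndex` : the local norm index is `p` at a place with only one prime above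
  (local class field theory; to be discharged by GLOB-DICT + PT-LOC `NIMain`);
* `FISplit` : at a totally split place every element is a local norm (CRT);
* `FIUnitNorm` : at an unramified place units are local norms;
* `FIInertVal` : at an unramified place with only one prime above, the valuation of a local norm
  is divisible by `p`;

global:
* `FIH1` : `Ĥ¹(E_K) = 0` (Hilbert 90 + invariant divisors outside `T'` come from `L`);
* `FINormUnit` : a global norm which is a `T`-unit is the norm of a `T'`-unit;
* `FILocalGlobal` : an element which is a local norm at every place outside `T` is a `T`-unit times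
  a global norm.
-/

set_option autoImplicit false

open NumberField IsDedekindDomain

namespace Fermat.Agent.PT.Glob

/-- **FI-L1 (local norm index).** If there is only one prime of `K` above `v`, the local norms at
`v` have index `p` in `Lˣ`. -/
def FILocalIndex : Prop :=
  ∀ (p : ℕ), p.Prime → 3 ≤ p → ∀ (L K : Type) [Field L] [NumberField L] [Field K]
    [NumberField K] [Algebra L K] [IsGalois L K], Module.finrank L K = p →
    ∀ v : HeightOneSpectrum (𝓞 L), (v.asIdeal.primesOver (𝓞 K)).ncard = 1 →
      (localNormSubgroup L K v).index = p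

/-- **FI-L2 (split places).** If there are `p` primes of `K` above `v`, every element of `Lˣ` is a
local norm at `v`. -/
def FISplit : Prop :=
  ∀ (p : ℕ), p.Prime → ∀ (L K : Type) [Field L] [NumberField L] [Field K]
    [NumberField K] [Algebra L K] [IsGalois L K], Module.finrank L K = p →
    ∀ v : HeightOneSpectrum (𝓞 L), (v.asIdeal.primesOver (𝓞 K)).ncard = p →
      ∀ b : Lˣ, IsLocalNormAt L K v b

/-- **FI-L3 (units are norms at unramified places).** -/
def FIUnitNorm : Prop :=
  ∀ (p : ℕ), p.Prime → ∀ (L K : Type) [Field L] [NumberField L] [Field K]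
    [NumberField K] [Algebra L K] [IsGalois L K], Module.finrank L K = p →
    ∀ v : HeightOneSpectrum (𝓞 L), v.asIdeal.ramificationIdxIn (𝓞 K) = 1 →
      ∀ b : Lˣ, v.valuation L (b : L) = 1 → IsLocalNormAt L K v b

/-- **FI-L4 (valuation of a local norm at an inert place).** -/
def FIInertVal : Prop :=
  ∀ (p : ℕ), p.Prime → ∀ (L K : Type) [Field L] [NumberField L] [Field K]
    [NumberField K] [Algebra L K] [IsGalois L K], Module.finrank L K = p →
    ∀ v : HeightOneSpectrum (𝓞 L), v.asIdeal.ramificationIdxIn (𝓞 K) = 1 →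
      (v.asIdeal.primesOver (𝓞 K)).ncard = 1 →
      ∀ b : Lˣ, IsLocalNormAt L K v b →
        ∃ k : ℤ, v.valuation L (b : L) = WithZero.exp ((p : ℤ) * k)

/-- **FI-G2 (`Ĥ¹` of the `T'`-units vanishes).** -/
def FIH1 : Prop :=
  ∀ (p : ℕ), p.Prime → ∀ (L K : Type) [Field L] [NumberField L] [Field K]
    [NumberField K] [Algebra L K] [IsGalois L K], Module.finrank L K = p →
    ∀ T : Finset (HeightOneSpectrum (𝓞 L)), Admissible L K p T →
    ∀ σ : Gal(K/L), (∀ τ : Gal(K/L), τ ∈ Subgroup.zpowers σ) →
    ∀ y : Kˣ, (∀ w : HeightOneSpectrum (𝓞 K),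
        w ∉ placesAbove L K (T : Set (HeightOneSpectrum (𝓞 L))) → w.valuation K (y : K) = 1) →
      Algebra.norm L (y : K) = 1 →
      ∃ z : Kˣ, (∀ w : HeightOneSpectrum (𝓞 K),
        w ∉ placesAbove L K (T : Set (HeightOneSpectrum (𝓞 L))) → w.valuation K (z : K) = 1) ∧
        (y : K) = σ (z : K) / (z : K)

/-- **FI-G3 (norms which are `T`-units).** -/
def FINormUnit : Prop :=
  ∀ (p : ℕ), p.Prime → ∀ (L K : Type) [Field L] [NumberField L] [Field K]
    [NumberField K] [Algebra L K] [IsGalois L K], Module.finrank L K = p →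
    ∀ T : Finset (HeightOneSpectrum (𝓞 L)), Admissible L K p T →
    ∀ y : Kˣ, (∀ v : HeightOneSpectrum (𝓞 L), v ∉ T →
        v.valuation L (Algebra.norm L (y : K)) = 1) →
      ∃ y' : Kˣ, (∀ w : HeightOneSpectrum (𝓞 K),
        w ∉ placesAbove L K (T : Set (HeightOneSpectrum (𝓞 L))) → w.valuation K (y' : K) = 1) ∧
        Algebra.norm L (y' : K) = Algebra.norm L (y : K)

/-- **FI-G4 (local norms outside `T` are `T`-units times global norms).** -/
def FILocalGlobal : Prop :=
  ∀ (p : ℕ), p.Prime → ∀ (L K : Type) [Field L] [NumberField L] [Field K]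
    [NumberField K] [Algebra L K] [IsGalois L K], Module.finrank L K = p →
    ∀ T : Finset (HeightOneSpectrum (𝓞 L)), Admissible L K p T →
    ∀ b : Lˣ, (∀ v : HeightOneSpectrum (𝓞 L), v ∉ T → IsLocalNormAt L K v b) →
      ∃ y : Kˣ, ∀ v : HeightOneSpectrum (𝓞 L), v ∉ T →
        v.valuation L ((b : L) / Algebra.norm L (y : K)) = 1

end Fermat.Agent.PT.Glob
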