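import Mathlib
import Fermat.Agent.PT.Glob.Core

/-!
# W3-PT / PT-GLOB / FI : elementary local norm facts, part 0 (helper46)

Language of `Glob/Core.lean`: `K / L` number fields, `v` a finite place of `L`.

* `h46u_one_add_mem` (U0): if `[K : L] = p` and `v ∤ p`, every `b ∈ Lˣ` with `v (b - 1) < 1` is a
  local norm at `v` (it is `v`-adically a `p`-th power, and `c ^ p = N_{K/L} c` for `c ∈ L`).
  No Galois hypothesis, no hypothesis on the ramification of `v`.
-/

set_option autoImplicit false

open NumberField IsDedekindDomain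

namespace Fermat.Agent.PT.Glob

noncomputable section

section ValLemmas

variable {L : Type} [Field L] [NumberField L]

/-- discreteness: a value `< 1` is `≤ exp (-1)`. -/
lemma h46u_le_exp_neg_one {x : WithZero (Multiplicative ℤ)} (hx : x < 1) :
    x ≤ WithZero.exp (-1 : ℤ) := by
  rcases eq_or_ne x 0 with rfl | h0
  · exact zero_le
  · obtain ⟨m, hm⟩ := WithZero.ne_zero_iff_exists.1 h0
    have hx' : x = WithZero.exp (Multiplicative.toAdd m) := hm.symm
    rw [hx'] at hx ⊢
    rw [← WithZero.exp_zero, WithZero.exp_lt_exp] at hx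
    rw [WithZero.exp_le_exp]
    omega

/-- natural numbers have valuation `≤ 1`. -/
lemma h46u_val_natCast_le_one (v : HeightOneSpectrum (𝓞 L)) (n : ℕ) :
    v.valuation L (n : L) ≤ 1 := by
  have h := v.valuation_le_one (K := L) (n : 𝓞 L)
  simpa using h

/-- binomial estimate: `(1 + a) ^ n ≡ 1 + n a` modulo `a ^ 2`. -/
lemma h46u_val_one_add_pow (v : HeightOneSpectrum (𝓞 L)) (a : L) (ha : v.valuation L a ≤ 1)
    (n : ℕ) : v.valuation L ((1 + a) ^ n - 1 - n * a) ≤ v.valuation L a ^ 2 := by
  induction n with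
  | zero => simp
  | succ n ih =>
    have key : (1 + a) ^ (n + 1) - 1 - ((n + 1 : ℕ) : L) * a
        = ((1 + a) ^ n - 1 - n * a) * (1 + a) + n * a ^ 2 := by
      push_cast; ring
    rw [key]
    have h1 : v.valuation L (((1 + a) ^ n - 1 - n * a) * (1 + a)) ≤ v.valuation L a ^ 2 := by
      rw [map_mul]
      have h1 : v.valuation L (1 + a) ≤ 1 :=
        (Valuation.map_add_le_max' _ _ _).trans (max_le (by simp) ha)
      calc v.valuation L ((1 + a) ^ n - 1 - n * a) * v.valuation L (1 + a)
          ≤ v.valuation L a ^ 2 * 1 := mul_le_mul' ih h1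
        _ = _ := mul_one _
    have h2 : v.valuation L ((n : L) * a ^ 2) ≤ v.valuation L a ^ 2 := by
      rw [map_mul, map_pow]
      calc v.valuation L (n : L) * v.valuation L a ^ 2
          ≤ 1 * v.valuation L a ^ 2 := mul_le_mul' (h46u_val_natCast_le_one v n) le_rfl
        _ = _ := one_mul _
    exact (Valuation.map_add_le_max' _ _ _).trans (max_le h1 h2)

/-- one step of the Newton iteration for `p`-th roots of principal units, `v ∤ p`. -/
lemma h46u_root_step (v : HeightOneSpectrum (𝓞 L)) (p : ℕ) (hpv : v.valuation L (p : L) = 1)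
    (d : L) (n : ℕ) (hd : v.valuation L (d - 1) ≤ WithZero.exp (-((n : ℤ) + 1))) :
    ∃ z : L, z ≠ 0 ∧ v.valuation L z = 1 ∧
      v.valuation L (d / z ^ p - 1) ≤ WithZero.exp (-(((n + 1 : ℕ) : ℤ) + 1)) := by
  have hp0 : (p : L) ≠ 0 := by
    intro h
    rw [h, map_zero] at hpv
    exact zero_ne_one hpv
  set a : L := (d - 1) / p with ha
  have hva : v.valuation L a = v.valuation L (d - 1) := by
    rw [ha, map_div₀, hpv, div_one]
  have hlt1 : (WithZero.exp (-((n : ℤ) + 1)) : WithZero (Multiplicative ℤ)) < 1 :=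
    exp_neg_succ_lt_one n
  have hva1 : v.valuation L a < 1 := by
    rw [hva]; exact hd.trans_lt hlt1
  have hz1 : v.valuation L (1 + a) = 1 :=
    Valuation.map_one_add_of_lt (v := v.valuation L) (x := a) hva1
  have hz0 : (1 + a) ≠ 0 := by
    intro h
    rw [h, map_zero] at hz1
    exact zero_ne_one hz1
  refine ⟨1 + a, hz0, hz1, ?_⟩
  have hpa : (p : L) * a = d - 1 := by
    rw [ha]; field_simp
  have hbin := h46u_val_one_add_pow v a hva1.le p
  rw [hpa] at hbin
  have hrew : d / (1 + a) ^ p - 1 = -((1 + a) ^ p - 1 - (d - 1)) / (1 + a) ^ p := by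
    field_simp
    ring
  rw [hrew, map_div₀, map_pow, hz1, one_pow, div_one, Valuation.map_neg]
  refine hbin.trans ?_
  rw [hva]
  calc v.valuation L (d - 1) ^ 2 ≤ (WithZero.exp (-((n : ℤ) + 1))) ^ 2 := by
        exact pow_le_pow_left' hd 2
    _ ≤ WithZero.exp (-(((n + 1 : ℕ) : ℤ) + 1)) := by
        rw [← WithZero.exp_nsmul, WithZero.exp_le_exp]
        push_cast
        simp only [nsmul_eq_mul]
        push_cast
        nlinarith

/-- `p`-th roots of principal units to any precision, `v ∤ p`. -/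
lemma h46u_root_approx (v : HeightOneSpectrum (𝓞 L)) (p : ℕ) (hpv : v.valuation L (p : L) = 1)
    (b : L) (hb : v.valuation L (b - 1) < 1) (n : ℕ) :
    ∃ c : L, c ≠ 0 ∧ v.valuation L c = 1 ∧
      v.valuation L (b / c ^ p - 1) ≤ WithZero.exp (-((n : ℤ) + 1)) := by
  induction n with
  | zero =>
    refine ⟨1, one_ne_zero, map_one _, ?_⟩
    simpa using h46u_le_exp_neg_one hb
  | succ n ih =>
    obtain ⟨c, hc0, hc1, hc⟩ := ih
    obtain ⟨z, hz0, hz1, hz⟩ := h46u_root_step v p hpv (b / c ^ p) n hc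
    refine ⟨c * z, mul_ne_zero hc0 hz0, by rw [map_mul, hc1, hz1, one_mul], ?_⟩
    have : b / (c * z) ^ p = b / c ^ p / z ^ p := by
      rw [mul_pow, div_div]
    rw [this]
    exact hz

end ValLemmas

section U0

variable (L K : Type) [Field L] [NumberField L] [Field K] [NumberField K] [Algebra L K]

/-- **(U0)** If `[K : L] = p` and `v ∤ p`, every principal unit at `v` is a local norm at `v`. -/
theorem h46u_one_add_mem (p : ℕ) (hdeg : Module.finrank L K = p)
    (v : HeightOneSpectrum (𝓞 L)) (hpv : v.valuation L (p : L) = 1)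
    (b : Lˣ) (hb : v.valuation L ((b : L) - 1) < 1) : IsLocalNormAt L K v b := by
  intro n
  obtain ⟨c, hc0, -, hc⟩ := h46u_root_approx v p hpv (b : L) hb n
  refine ⟨Units.map (algebraMap L K : L →* K) (Units.mk0 c hc0), ?_⟩
  unfold NormApprox
  have hN : Algebra.norm L ((Units.map (algebraMap L K : L →* K) (Units.mk0 c hc0) : Kˣ) : K)
      = c ^ p := by
    show Algebra.norm L (algebraMap L K c) = c ^ p
    rw [Algebra.norm_algebraMap, hdeg]
  rw [hN]
  exact hc

end U0

end

end Fermat.Agent.PT.Glob
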