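import Mathlib
import Fermat.Agent.PT.Glob.Core
import Fermat.Agent.PT.Glob.FI.H46Unr0

/-!
# W3-PT / PT-GLOB / FI : elementary local norm facts, part 1 (helper46)

`K / L` Galois of prime degree `p`, `v` a finite place of `L`.

* `h46u_split_top` (U1): if `v` has more than one prime above it (i.e. `v` splits completely),
  every element of `Lˣ` is a local norm at `v`.
-/

set_option autoImplicit false

open NumberField IsDedekindDomain
open scoped Pointwise

namespace Fermat.Agent.PT.Glob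

noncomputable section

section Basic

variable (L K : Type) [Field L] [NumberField L] [Field K] [NumberField K] [Algebra L K]
  [IsGalois L K]

/-- the integral norm is the product of the conjugates. -/
lemma h46u_intNorm_eq_prod (x : 𝓞 K) :
    algebraMap (𝓞 L) (𝓞 K) (Algebra.intNorm (𝓞 L) (𝓞 K) x) = ∏ σ : Gal(K/L), σ • x := by
  apply RingOfIntegers.ext
  have h1 : ((algebraMap (𝓞 L) (𝓞 K) (Algebra.intNorm (𝓞 L) (𝓞 K) x) : 𝓞 K) : K)
      = algebraMap L K (Algebra.norm L (x : K)) := by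
    rw [← Algebra.algebraMap_intNorm (A := 𝓞 L) (K := L) (L := K) (B := 𝓞 K),
      ← IsScalarTower.algebraMap_apply (𝓞 L) L K]
    exact (IsScalarTower.algebraMap_apply (𝓞 L) (𝓞 K) K _).symm
  have h2 : ((∏ σ : Gal(K/L), σ • x : 𝓞 K) : K) = ∏ σ : Gal(K/L), ((σ • x : 𝓞 K) : K) :=
    map_prod (algebraMap (𝓞 K) K) _ _
  rw [h1, h2, Algebra.norm_eq_prod_automorphisms]
  rfl

omit [IsGalois L K] in
/-- the norm of an integral element, in `L`. -/
lemma h46u_coe_intNorm (x : 𝓞 K) :
    ((Algebra.intNorm (𝓞 L) (𝓞 K) x : 𝓞 L) : L) = Algebra.norm L (x : K) :=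
  Algebra.algebraMap_intNorm (A := 𝓞 L) (K := L) (L := K) (B := 𝓞 K) x

variable {L K}

/-- fundamental identity in prime degree. -/
lemma h46u_efg (p : ℕ) (hdeg : Module.finrank L K = p) (v : HeightOneSpectrum (𝓞 L)) :
    (v.asIdeal.primesOver (𝓞 K)).ncard *
      (v.asIdeal.ramificationIdxIn (𝓞 K) * v.asIdeal.inertiaDegIn (𝓞 K)) = p := by
  have := v.isMaximal
  have h := Ideal.ncard_primesOver_mul_ramificationIdxIn_mul_inertiaDegIn v.asIdeal (𝓞 K) Gal(K/L)
  rw [IsGalois.card_aut_eq_finrank, hdeg] at h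
  exact h

/-- the ramification index appearing in the valuation formula. -/
lemma h46u_ramIdx' (v : HeightOneSpectrum (𝓞 L)) (P : Ideal (𝓞 K)) [P.IsPrime]
    [P.LiesOver v.asIdeal] :
    v.asIdeal.ramificationIdx' P = v.asIdeal.ramificationIdxIn (𝓞 K) := by
  rw [Ideal.ramificationIdx'_eq_ramificationIdx v.asIdeal P v.ne_bot,
    Ideal.ramificationIdxIn_eq_ramificationIdx v.asIdeal P Gal(K/L)]

/-- valuations of elements of `L` at a prime of `K` above `v`. -/
lemma h46u_val_up (v : HeightOneSpectrum (𝓞 L)) (w : HeightOneSpectrum (𝓞 K))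
    [w.asIdeal.LiesOver v.asIdeal] (x : L) :
    w.valuation K (algebraMap L K x) =
      v.valuation L x ^ v.asIdeal.ramificationIdxIn (𝓞 K) := by
  rw [← h46u_ramIdx' v w.asIdeal]
  exact (HeightOneSpectrum.valuation_liesOver K v w x).symm

/-- In the split case the stabilizer of a prime above `v` is trivial. -/
lemma h46u_smul_ne (p : ℕ) (hp : p.Prime) (hdeg : Module.finrank L K = p)
    (v : HeightOneSpectrum (𝓞 L)) (hsplit : (v.asIdeal.primesOver (𝓞 K)).ncard ≠ 1)
    (P : Ideal (𝓞 K)) [P.IsPrime] [P.LiesOver v.asIdeal]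
    (σ : Gal(K/L)) (hσ : σ • P = P) : σ = 1 := by
  by_contra hne
  have hcard : Nat.card Gal(K/L) = p := by rw [IsGalois.card_aut_eq_finrank, hdeg]
  have : Fact (Nat.card Gal(K/L)).Prime := ⟨hcard ▸ hp⟩
  have hH : MulAction.stabilizer Gal(K/L) P = ⊤ := by
    rcases Subgroup.eq_bot_or_eq_top_of_prime_card (MulAction.stabilizer Gal(K/L) P) with h | h
    · exfalso
      apply hne
      have h1 : σ ∈ MulAction.stabilizer Gal(K/L) P := MulAction.mem_stabilizer_iff.2 hσ
      rw [h] at h1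
      exact Subgroup.mem_bot.1 h1
    · exact h
  apply hsplit
  rw [Set.ncard_eq_one]
  refine ⟨P, ?_⟩
  ext Q
  constructor
  · rintro ⟨hQ1, hQ2⟩
    obtain ⟨τ, hτ⟩ := Ideal.exists_smul_eq_of_isGaloisGroup v.asIdeal P Q Gal(K/L)
    have h1 : τ ∈ MulAction.stabilizer Gal(K/L) P := by rw [hH]; trivial
    rw [Set.mem_singleton_iff, ← hτ]
    exact MulAction.mem_stabilizer_iff.1 h1
  · intro h
    rw [Set.mem_singleton_iff] at h
    subst h
    exact ⟨inferInstance, inferInstance⟩

end Basic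

section Split

variable {L K : Type} [Field L] [NumberField L] [Field K] [NumberField K] [Algebra L K]

/-- from a congruence for the norm of an integral element to `NormApprox`. -/
lemma h46u_normApprox_of_int (v : HeightOneSpectrum (𝓞 L)) (b : Lˣ) (y : 𝓞 K) (m : ℤ) (n : ℕ)
    (hvb : v.valuation L (b : L) = WithZero.exp m)
    (h : v.valuation L (((Algebra.intNorm (𝓞 L) (𝓞 K) y : 𝓞 L) : L) - (b : L)) ≤
      WithZero.exp (m - ((n : ℤ) + 1))) :
    ∃ y' : Kˣ, NormApprox L K v n b y' := by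
  set Ny : L := ((Algebra.intNorm (𝓞 L) (𝓞 K) y : 𝓞 L) : L) with hNy
  have hlt : v.valuation L (Ny - b) < v.valuation L (b : L) := by
    rw [hvb]
    refine h.trans_lt ?_
    rw [WithZero.exp_lt_exp]
    omega
  have hvN : v.valuation L Ny = WithZero.exp m := by
    have h1 : Ny = (Ny - b) + b := by ring
    rw [h1, Valuation.map_add_eq_of_lt_right _ hlt, hvb]
  have hN0 : Ny ≠ 0 := by
    intro h0
    rw [h0, map_zero] at hvN
    exact WithZero.exp_ne_zero hvN.symm
  have hy0 : (y : K) ≠ 0 := by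
    intro h0
    apply hN0
    rw [hNy, h46u_coe_intNorm, h0, Algebra.norm_zero]
  refine ⟨Units.mk0 (y : K) hy0, ?_⟩
  unfold NormApprox
  show v.valuation L ((b : L) / Algebra.norm L (y : K) - 1) ≤ _
  rw [← h46u_coe_intNorm L K y, ← hNy]
  have h2 : (b : L) / Ny - 1 = -(Ny - b) / Ny := by
    field_simp
    ring
  rw [h2, map_div₀, Valuation.map_neg, hvN, div_le_iff₀ WithZero.exp_pos, ← WithZero.exp_add]
  refine h.trans ?_
  rw [WithZero.exp_le_exp]
  omega

variable [IsGalois L K]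

/-- **(U1)** If `v` has more than one prime above it in the Galois extension `K / L` of prime
degree `p`, every element of `Lˣ` is a local norm at `v`. -/
theorem h46u_split_top (p : ℕ) (hp : p.Prime) (hdeg : Module.finrank L K = p)
    (v : HeightOneSpectrum (𝓞 L)) (hsplit : (v.asIdeal.primesOver (𝓞 K)).ncard ≠ 1) :
    localNormSubgroup L K v = ⊤ := by
  have key : ∀ b₀ : 𝓞 L, b₀ ≠ 0 → ∀ b : Lˣ, (b : L) = (b₀ : L) →
      b ∈ localNormSubgroup L K v := by
    intro b₀ hb₀ b hb n
    classical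
    have := v.isMaximal
    obtain ⟨P, hP, hPv⟩ :=
      Ideal.exists_maximal_ideal_liesOver_of_isIntegral (S := 𝓞 K) v.asIdeal
    have hPp : P.IsPrime := hP.isPrime
    have hPne : P ≠ ⊥ := Ideal.ne_bot_of_liesOver_of_ne_bot v.ne_bot P
    let w : HeightOneSpectrum (𝓞 K) := ⟨P, hP.isPrime, hPne⟩
    have hwv : w.asIdeal.LiesOver v.asIdeal := hPv
    -- the ramification index is `1`
    have he : v.asIdeal.ramificationIdxIn (𝓞 K) = 1 := by
      have h := h46u_efg p hdeg v
      have hg : (v.asIdeal.primesOver (𝓞 K)).ncard = p := by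
        have hdvd : (v.asIdeal.primesOver (𝓞 K)).ncard ∣ p := ⟨_, h.symm⟩
        rcases (Nat.dvd_prime hp).1 hdvd with h1 | h1
        · exact absurd h1 hsplit
        · exact h1
      rw [hg] at h
      have h1 : v.asIdeal.ramificationIdxIn (𝓞 K) * v.asIdeal.inertiaDegIn (𝓞 K) = 1 :=
        Nat.eq_of_mul_eq_mul_left hp.pos (h.trans (mul_one p).symm)
      exact Nat.eq_one_of_mul_eq_one_right h1
    obtain ⟨m, hm⟩ : ∃ m : ℕ, v.intValuation b₀ = WithZero.exp (-(m : ℤ)) :=
      ⟨_, v.intValuation_eq_exp_neg_multiplicity hb₀⟩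
    -- Chinese remainder theorem
    obtain ⟨y, hy⟩ := IsDedekindDomain.exists_forall_sub_mem_ideal (s := Finset.univ)
      (fun σ : Gal(K/L) => σ • P) (fun _ => m + n + 1)
      (fun σ _ => by
        have h1 : (σ • P).IsPrime := inferInstance
        have h2 : σ • P ≠ ⊥ := by
          intro h0
          apply hPne
          have h3 : σ⁻¹ • (σ • P) = σ⁻¹ • (⊥ : Ideal (𝓞 K)) := by rw [h0]
          rw [inv_smul_smul] at h3
          rw [h3]
          exact smul_zero _
        exact Ideal.prime_of_isPrime h2 h1)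
      (fun σ _ τ _ hne h => by
        apply hne
        have h1 : (τ⁻¹ * σ) • P = P := by
          rw [mul_smul, h, inv_smul_smul]
        have h2 := h46u_smul_ne p hp hdeg v hsplit P (τ⁻¹ * σ) h1
        exact (inv_mul_eq_one.1 h2).symm)
      (fun σ => if σ.1 = 1 then algebraMap (𝓞 L) (𝓞 K) b₀ else 1)
    have hy1 : y - algebraMap (𝓞 L) (𝓞 K) b₀ ∈ P ^ (m + n + 1) := by
      have h1 := hy 1 (Finset.mem_univ _)
      simpa using h1
    have hyσ : ∀ σ : Gal(K/L), σ ≠ 1 → y - 1 ∈ (σ • P) ^ (m + n + 1) := by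
      intro σ hσ
      have h1 := hy σ (Finset.mem_univ _)
      simpa [hσ] using h1
    -- the norm of `y` is congruent to `b₀`
    have hN : algebraMap (𝓞 L) (𝓞 K) (Algebra.intNorm (𝓞 L) (𝓞 K) y) -
        algebraMap (𝓞 L) (𝓞 K) b₀ ∈ P ^ (m + n + 1) := by
      rw [h46u_intNorm_eq_prod, ← Ideal.Quotient.eq, map_prod,
        Fintype.prod_eq_single (1 : Gal(K/L))]
      · rw [one_smul, Ideal.Quotient.eq]
        exact hy1
      · intro τ hτ
        rw [← map_one (Ideal.Quotient.mk (P ^ (m + n + 1))), Ideal.Quotient.eq]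
        have h1 : y - 1 ∈ (τ⁻¹ • P) ^ (m + n + 1) := hyσ τ⁻¹ (by simpa using hτ)
        have h2 : τ • (y - 1) ∈ τ • ((τ⁻¹ • P) ^ (m + n + 1)) :=
          Ideal.smul_mem_pointwise_smul _ _ _ h1
        rw [smul_pow', smul_inv_smul, smul_sub, smul_one] at h2
        exact h2
    -- valuations
    have hval : v.valuation L (((Algebra.intNorm (𝓞 L) (𝓞 K) y : 𝓞 L) : L) - (b₀ : L)) ≤
        WithZero.exp (-((m + n + 1 : ℕ) : ℤ)) := by
      have h1 : w.intValuation (algebraMap (𝓞 L) (𝓞 K) (Algebra.intNorm (𝓞 L) (𝓞 K) y - b₀)) ≤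
          WithZero.exp (-((m + n + 1 : ℕ) : ℤ)) := by
        rw [HeightOneSpectrum.intValuation_le_pow_iff_mem, map_sub]
        exact hN
      have h2 := h46u_val_up v w
        (algebraMap (𝓞 L) L (Algebra.intNorm (𝓞 L) (𝓞 K) y - b₀))
      rw [he, pow_one] at h2
      rw [← map_sub, ← h2, ← IsScalarTower.algebraMap_apply (𝓞 L) L K,
        IsScalarTower.algebraMap_apply (𝓞 L) (𝓞 K) K, HeightOneSpectrum.valuation_of_algebraMap]
      exact h1
    have hvb : v.valuation L (b : L) = WithZero.exp (-(m : ℤ)) := by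
      rw [hb]
      exact (HeightOneSpectrum.valuation_of_algebraMap v b₀).trans hm
    refine h46u_normApprox_of_int v b y (-(m : ℤ)) n hvb ?_
    rw [hb]
    refine hval.trans ?_
    rw [WithZero.exp_le_exp]
    push_cast
    omega
  rw [eq_top_iff]
  intro b _
  obtain ⟨a, c, hc, habc⟩ := IsFractionRing.div_surjective (A := 𝓞 L) (b : L)
  have hc0 : c ≠ 0 := nonZeroDivisors.ne_zero hc
  have hcL : algebraMap (𝓞 L) L c ≠ 0 := by
    simpa using hc0
  have ha0 : a ≠ 0 := by
    intro h0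
    rw [h0, map_zero, zero_div] at habc
    exact b.ne_zero habc.symm
  have haL : algebraMap (𝓞 L) L a ≠ 0 := by
    simpa using ha0
  have hbq : b = Units.mk0 _ haL / Units.mk0 _ hcL := by
    apply Units.ext
    rw [Units.val_div_eq_div_val]
    exact habc.symm
  rw [hbq]
  exact Subgroup.div_mem _ (key a ha0 _ rfl) (key c hc0 _ rfl)

end Split

end

end Fermat.Agent.PT.Glob
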