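import Mathlib
import Fermat.Agent.PT.Glob.Core
import Fermat.Agent.PT.Glob.FI.Iface
import Fermat.Agent.PT.Glob.FI.H46Unr1

/-!
# W3-PT / PT-GLOB / FI-L2 : `FISplit` (helper46)

At a place `v` of `L` with `p` primes of `K` above it, every element of `Lˣ` is a local norm
(Chinese remainder theorem in `𝓞 K`, see `h46u_split_top` in `H46Unr1.lean`).
-/

set_option autoImplicit false

open NumberField IsDedekindDomain

namespace Fermat.Agent.PT.Glob

/-- **FI-L2.** -/
theorem h46u_fiSplit : FISplit := by
  intro p hp L K _ _ _ _ _ _ hdeg v hv b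
  have hne : (v.asIdeal.primesOver (𝓞 K)).ncard ≠ 1 := by
    rw [hv]
    exact hp.one_lt.ne'
  have h := h46u_split_top p hp hdeg v hne
  have hb : b ∈ localNormSubgroup L K v := by
    rw [h]
    exact Subgroup.mem_top b
  exact hb

end Fermat.Agent.PT.Glob
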