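import Mathlib
import Fermat.Agent.PT.Glob.FI.Iface

/-!
# W3-PT / GLOB-FI, leaf FI-L2 (helper19): split places

If a place `v` of `L` splits completely in the Galois extension `K / L` of prime degree `p`
(`p` primes above `v`), then every element of `Lˣ` is a local norm at `v`.

Proof: the Galois group acts simply transitively on the primes above `v`.  By the Chinese
remainder theorem choose `y ∈ 𝓞 K` close to `x` at one prime `P₁` above `v` and close to `1` at
the other primes above `v`; then `N(y) = ∏ σ y` is close to `x` at `P₁`, hence at `v`.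
-/

set_option autoImplicit false

open NumberField IsDedekindDomain
open scoped Pointwise

namespace Fermat.Agent.PT.Glob

set_option linter.style.haveILetI false

/-- Integral core: approximation of a nonzero integer `x` of `L` by norms of integers of `K` at a
totally split place. -/
theorem h19s_integral (p : ℕ) (hp : p.Prime) (L K : Type) [Field L] [NumberField L] [Field K]
    [NumberField K] [Algebra L K] [IsGalois L K] (hdeg : Module.finrank L K = p)
    (v : HeightOneSpectrum (𝓞 L)) (hv : (v.asIdeal.primesOver (𝓞 K)).ncard = p)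
    (x : 𝓞 L) (a : ℕ) :
    ∃ y : 𝓞 K, v.intValuation (Algebra.intNorm (𝓞 L) (𝓞 K) y - x) ≤ WithZero.exp (-(a : ℤ)) := by
  classical
  have hfin : (v.asIdeal.primesOver (𝓞 K)).Finite :=
    IsDedekindDomain.primesOver_finite v.asIdeal (𝓞 K)
  have hne : (v.asIdeal.primesOver (𝓞 K)).Nonempty := by
    rw [← Set.ncard_pos hfin, hv]; exact hp.pos
  obtain ⟨P₁, hP₁⟩ := hne
  haveI : P₁.IsPrime := hP₁.1
  haveI : P₁.LiesOver v.asIdeal := hP₁.2
  have hP₁0 : P₁ ≠ ⊥ := Ideal.ne_bot_of_liesOver_of_ne_bot v.ne_bot P₁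
  let w : HeightOneSpectrum (𝓞 K) := ⟨P₁, hP₁.1, hP₁0⟩
  set e := v.asIdeal.ramificationIdx' P₁ with he
  have he0 : e ≠ 0 := Ideal.IsDedekindDomain.ramificationIdx'_ne_zero_of_liesOver P₁ v.ne_bot
  -- CRT
  obtain ⟨y, hy⟩ := IsDedekindDomain.exists_forall_sub_mem_ideal (s := hfin.toFinset)
    (fun Q : Ideal (𝓞 K) => Q) (fun _ => a * e)
    (fun Q hQ => by
      have hQ' := hfin.mem_toFinset.1 hQ
      haveI : Q.IsPrime := hQ'.1
      haveI : Q.LiesOver v.asIdeal := hQ'.2
      exact Ideal.prime_of_isPrime (Ideal.ne_bot_of_liesOver_of_ne_bot v.ne_bot Q) hQ'.1)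
    (fun Q _ Q' _ h => h)
    (fun Q => if Q.1 = P₁ then algebraMap (𝓞 L) (𝓞 K) x else 1)
  have hy1 : y - algebraMap (𝓞 L) (𝓞 K) x ∈ P₁ ^ (a * e) := by
    have := hy P₁ (hfin.mem_toFinset.2 hP₁)
    simpa using this
  have hy2 : ∀ Q ∈ v.asIdeal.primesOver (𝓞 K), Q ≠ P₁ → y - 1 ∈ Q ^ (a * e) := by
    intro Q hQ hne
    have := hy Q (hfin.mem_toFinset.2 hQ)
    simpa [hne] using this
  refine ⟨y, ?_⟩
  -- freeness
  have hfree : ∀ σ : Gal(K/L), σ • P₁ = P₁ → σ = 1 := by
    intro σ hσ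
    have hcard : Nat.card Gal(K/L) ≤ Nat.card (v.asIdeal.primesOver (𝓞 K)) := by
      rw [IsGaloisGroup.card_eq_finrank Gal(K/L) L K, hdeg, ← hv, Nat.card_coe_set_eq]
    let f : Gal(K/L) → v.asIdeal.primesOver (𝓞 K) := fun τ =>
      ⟨τ • P₁, inferInstance, inferInstance⟩
    have hsurj : Function.Surjective f := by
      rintro ⟨Q, hQ1, hQ2⟩
      haveI := hQ1
      haveI := hQ2
      obtain ⟨τ, hτ⟩ := Ideal.exists_smul_eq_of_isGaloisGroup v.asIdeal P₁ Q Gal(K/L)
      exact ⟨τ, Subtype.ext hτ⟩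
    have hbij := hsurj.bijective_of_nat_card_le hcard
    refine hbij.1 (Subtype.ext ?_)
    show σ • P₁ = (1 : Gal(K/L)) • P₁
    rw [hσ, one_smul]
  -- For σ ≠ 1, σ • y - 1 ∈ P₁ ^ (a*e)
  have hσy : ∀ σ : Gal(K/L), σ ≠ 1 → σ • y - 1 ∈ P₁ ^ (a * e) := by
    intro σ hσ
    have hQ : σ⁻¹ • P₁ ∈ v.asIdeal.primesOver (𝓞 K) := ⟨inferInstance, inferInstance⟩
    have hQne : σ⁻¹ • P₁ ≠ P₁ := fun h => hσ (inv_eq_one.1 (hfree _ h))
    have h1 := hy2 _ hQ hQne
    rw [← smul_pow'] at h1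
    rw [Ideal.mem_inv_pointwise_smul_iff] at h1
    simpa [smul_sub] using h1
  -- the norm as a product over the Galois group
  have hprod : algebraMap (𝓞 L) (𝓞 K) (Algebra.intNorm (𝓞 L) (𝓞 K) y)
      = ∏ σ : Gal(K/L), σ • y := by
    apply FaithfulSMul.algebraMap_injective (𝓞 K) K
    rw [← IsScalarTower.algebraMap_apply (𝓞 L) (𝓞 K) K, IsScalarTower.algebraMap_apply (𝓞 L) L K,
      Algebra.algebraMap_intNorm (A := 𝓞 L) (K := L) (L := K) (B := 𝓞 K),
      Algebra.norm_eq_prod_automorphisms, map_prod]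
    rfl
  have hmem : algebraMap (𝓞 L) (𝓞 K) (Algebra.intNorm (𝓞 L) (𝓞 K) y - x) ∈ P₁ ^ (a * e) := by
    rw [map_sub, hprod, ← Ideal.Quotient.eq, map_prod,
      ← Finset.mul_prod_erase Finset.univ _ (Finset.mem_univ (1 : Gal(K/L))),
      Finset.prod_eq_one, mul_one, one_smul]
    · exact Ideal.Quotient.eq.2 hy1
    · intro σ hσ
      rw [← map_one (Ideal.Quotient.mk (P₁ ^ (a * e)))]
      exact Ideal.Quotient.eq.2 (hσy σ (Finset.ne_of_mem_erase hσ))
  -- valuations
  have hw : w.intValuation (algebraMap (𝓞 L) (𝓞 K) (Algebra.intNorm (𝓞 L) (𝓞 K) y - x))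
      ≤ WithZero.exp (-((a * e : ℕ) : ℤ)) := (w.intValuation_le_pow_iff_mem _ _).2 hmem
  haveI : w.asIdeal.LiesOver v.asIdeal := hP₁.2
  rw [← HeightOneSpectrum.intValuation_liesOver v w] at hw
  have hexp : (WithZero.exp (-((a * e : ℕ) : ℤ)) : WithZero (Multiplicative ℤ))
      = (WithZero.exp (-(a : ℤ))) ^ e := by
    rw [← WithZero.exp_nsmul]
    congr 1
    push_cast
    simp [mul_comm]
  rw [hexp] at hw
  exact (pow_le_pow_iff_left₀ zero_le zero_le he0).1 hw

/-- A nonzero integer of `L` is a local norm at a totally split place. -/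
theorem h19s_isLocalNormAt_integer (p : ℕ) (hp : p.Prime) (L K : Type) [Field L] [NumberField L]
    [Field K] [NumberField K] [Algebra L K] [IsGalois L K] (hdeg : Module.finrank L K = p)
    (v : HeightOneSpectrum (𝓞 L)) (hv : (v.asIdeal.primesOver (𝓞 K)).ncard = p)
    (x : 𝓞 L) (hx : algebraMap (𝓞 L) L x ≠ 0) :
    IsLocalNormAt L K v (Units.mk0 (algebraMap (𝓞 L) L x) hx) := by
  intro n
  have hx0 : x ≠ 0 := fun h => hx (by rw [h, map_zero])
  have hvx : v.intValuation x ≠ 0 := v.intValuation_ne_zero x hx0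
  obtain ⟨k, hk⟩ : ∃ k : ℤ, v.intValuation x = WithZero.exp k :=
    ⟨WithZero.log _, (WithZero.exp_log hvx).symm⟩
  obtain ⟨y, hy⟩ := h19s_integral p hp L K hdeg v hv x (n + 1 - k).toNat
  set N := Algebra.intNorm (𝓞 L) (𝓞 K) y with hN
  have hle : v.intValuation (N - x) ≤ WithZero.exp (k - (n + 1)) := by
    refine hy.trans ?_
    rw [WithZero.exp_le_exp]
    omega
  have hlt : v.intValuation (N - x) < v.intValuation x := by
    rw [hk]
    refine hle.trans_lt ?_
    rw [WithZero.exp_lt_exp]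
    omega
  have hNx : v.intValuation N = v.intValuation x := by
    have := Valuation.map_add_eq_of_lt_right v.intValuation hlt
    simpa using this
  have hN0 : N ≠ 0 := by
    intro h
    rw [h, map_zero] at hNx
    exact hvx hNx.symm
  have hy0 : y ≠ 0 := by
    intro h
    apply hN0
    rw [hN, h, Algebra.intNorm_zero]
  have hyK : algebraMap (𝓞 K) K y ≠ 0 := by
    intro h
    apply hy0
    exact FaithfulSMul.algebraMap_injective (𝓞 K) K (by rw [h, map_zero])
  refine ⟨Units.mk0 (algebraMap (𝓞 K) K y) hyK, ?_⟩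
  unfold NormApprox
  simp only [Units.val_mk0]
  rw [← Algebra.algebraMap_intNorm (A := 𝓞 L) (K := L) (L := K) (B := 𝓞 K), ← hN]
  have hNL : algebraMap (𝓞 L) L N ≠ 0 := by
    intro h
    apply hN0
    exact FaithfulSMul.algebraMap_injective (𝓞 L) L (by rw [h, map_zero])
  have hrw : algebraMap (𝓞 L) L x / algebraMap (𝓞 L) L N - 1
      = algebraMap (𝓞 L) L (x - N) / algebraMap (𝓞 L) L N := by
    rw [map_sub, sub_div, div_self hNL]
  have hsymm : v.intValuation (x - N) = v.intValuation (N - x) := by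
    rw [← neg_sub, Valuation.map_neg]
  rw [hrw, map_div₀, v.valuation_of_algebraMap, v.valuation_of_algebraMap, hNx, hk, hsymm]
  have hk0 : (WithZero.exp k : WithZero (Multiplicative ℤ)) ≠ 0 := WithZero.exp_ne_zero
  rw [div_le_iff₀ (zero_lt_iff.2 hk0), ← WithZero.exp_add]
  refine hle.trans (le_of_eq ?_)
  congr 1
  ring

/-- **FI-L2**: at a totally split place every element of `Lˣ` is a local norm. -/
theorem h19s_fiSplit : FISplit := by
  intro p hp L K _ _ _ _ _ _ hdeg v hv b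
  obtain ⟨x, y, hy, hxy⟩ := IsFractionRing.div_surjective (A := 𝓞 L) (b : L)
  have hy0 : algebraMap (𝓞 L) L y ≠ 0 := by
    intro h
    have : y = 0 := FaithfulSMul.algebraMap_injective (𝓞 L) L (by rw [h, map_zero])
    rw [this] at hy
    exact (mem_nonZeroDivisors_iff_ne_zero.1 hy) rfl
  have hx0 : algebraMap (𝓞 L) L x ≠ 0 := by
    intro h
    rw [h, zero_div] at hxy
    exact b.ne_zero hxy.symm
  have hb : b = Units.mk0 _ hx0 * (Units.mk0 _ hy0)⁻¹ := by
    apply Units.ext
    rw [Units.val_mul, Units.val_inv_eq_inv_val, Units.val_mk0, Units.val_mk0, ← hxy,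
      div_eq_mul_inv]
  rw [hb]
  exact (localNormSubgroup L K v).mul_mem
    (h19s_isLocalNormAt_integer p hp L K hdeg v hv x hx0)
    ((localNormSubgroup L K v).inv_mem (h19s_isLocalNormAt_integer p hp L K hdeg v hv y hy0))

end Fermat.Agent.PT.Glob
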