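import Mathlib
import Fermat.Agent.PT.Glob.FI.Iface
import Fermat.Agent.PT.Glob.Dict.H10Index
import Fermat.Agent.PT.Loc.H82URNorm

/-!
# W3-PT / PT-GLOB, block GLOB-FI, leaf FI-L3 (helper82): `FIUnitNorm`

At an unramified place `v` of `L`, every `v`-unit of `L` is a local norm from `K`
(`K/L` Galois of prime degree `p`; `v ∣ p` allowed).

Route (GLOB-DICT + PT-LOC):
* `p` primes above `v`: `FISplit`;
* one prime above `v`: the local extension `E_K/E_L` is cyclic of degree `p` (`h10d_exists_isCyc`);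
  by `NIDich` it is `Kur E_L p` (the totally ramified alternative is excluded because a
  uniformizer of `v` stays a uniformizer above: `h82u_unif_norm`); by `URNorm` the unit `ι b` is
  a norm along a Frobenius, and the norm along any two generators agree
  (`h82u_normAlong_eq_of_isCyc`); conclude with `h10d_isLocalNormAt_iff`.

Main result:
`h82u_fiUnitNorm : FISplit → LFPow → LFTeich → URCyc → URFrob → NIDich → FIUnitNorm`.
-/

set_option autoImplicit false

open NumberField IsDedekindDomain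

namespace Fermat.Agent.PT.Glob

open Fermat.Agent.PT.Loc

noncomputable section

variable {q : ℕ} [Fact q.Prime]

/-! ## The norm along two generators of a cyclic step -/

theorem h82u_normAlong_eq_of_isCyc {K K₁ : LF q} {n : ℕ} {g φ : Gq q}
    (hg : IsCyc K K₁ n g) (hφ : IsCyc K K₁ n φ) {β : Om q} (hβ : β ∈ K₁) :
    normAlong g n β = normAlong φ n β := by
  have hex : ∀ i : ℕ, ∃ j, j < n ∧ (φ ^ j)⁻¹ * g ^ i ∈ GK K₁ :=
    fun i => hφ.gen (g ^ i) (Subgroup.pow_mem _ hg.mem i)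
  choose f hf1 hf2 using hex
  have key : ∀ i i', i ≤ i' → i' < n → f i = f i' → i = i' := by
    intro i i' hii' hi' hfe
    have h1 : (g ^ i)⁻¹ * g ^ i' ∈ GK K₁ := by
      have h2 : (g ^ i)⁻¹ * g ^ i' = ((φ ^ f i)⁻¹ * g ^ i)⁻¹ * ((φ ^ f i')⁻¹ * g ^ i') := by
        rw [hfe]
        group
      rw [h2]
      exact Subgroup.mul_mem _ (Subgroup.inv_mem _ (hf2 i)) (hf2 i')
    have h3 : (g ^ i)⁻¹ * g ^ i' = g ^ (i' - i) := by
      rw [inv_mul_eq_iff_eq_mul, ← pow_add]
      congr 1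
      omega
    rw [h3] at h1
    by_contra hne
    exact hg.ord (i' - i) (by omega) (by omega) h1
  have hinj : Set.InjOn f (Finset.range n : Set ℕ) := by
    intro i hi i' hi' hfe
    have hi : i < n := Finset.mem_range.mp hi
    have hi' : i' < n := Finset.mem_range.mp hi'
    rcases le_total i i' with h | h
    · exact key i i' h hi' hfe
    · exact (key i' i h hi hfe.symm).symm
  unfold normAlong
  refine Finset.prod_nbij f (fun i _ => Finset.mem_range.mpr (hf1 i)) hinj
    (Finset.surjOn_of_injOn_of_card_le f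
      (fun i _ => Finset.mem_range.mpr (hf1 i)) hinj le_rfl) ?_
  · intro i _
    have h1 : (g ^ i) β = (φ ^ f i) (((φ ^ f i)⁻¹ * g ^ i) β) := by
      rw [← AlgEquiv.mul_apply, mul_inv_cancel_left]
    rw [h1, h82n_fixed_of_mem (hf2 i) hβ]

/-! ## Uniformizers of the local field of a place -/

section unif

variable {F : Type} [Field F] [NumberField F]

/-- A uniformizer of the local field has the norm of (the image of) a global uniformizer. -/
theorem h82u_unif_norm {ι : F →+* Om q} {v : HeightOneSpectrum (𝓞 F)}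
    (hv : h10d_Induces ι v) {x : F} (hx : v.valuation F x = WithZero.exp (-1 : ℤ))
    {π : Om q} (hπ : IsUnif (h10d_loc ι) π) : ‖π‖ = ‖ι x‖ := by
  obtain ⟨c, hc0, hc1, hc⟩ := h10d_val_norm hv
  have hx0 : x ≠ 0 := by
    rintro rfl
    rw [map_zero] at hx
    exact WithZero.exp_ne_zero hx.symm
  have hxc : ‖ι x‖ = c := by
    obtain ⟨n, hn, hnc⟩ := hc x hx0
    rw [hx, WithZero.exp_inj] at hn
    have : n = 1 := by omega
    rw [hnc, this, zpow_one]
  obtain ⟨hπmem, hπ0, hπ1, hπmax⟩ := hπ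
  apply le_antisymm
  · -- `‖π‖ ≤ c`
    have hπpos : 0 < ‖π‖ := norm_pos_iff.2 hπ0
    obtain ⟨y, hy⟩ := h10d_dense ι hπmem hπpos
    have hyπ : ‖ι y‖ = ‖π‖ := by
      have h1 : ‖ι y - π‖ ≠ ‖π‖ := hy.ne
      have h2 := IsUltrametricDist.norm_add_eq_max_of_norm_ne_norm h1
      rw [sub_add_cancel, max_eq_right hy.le] at h2
      exact h2
    have hy0 : y ≠ 0 := by
      rintro rfl
      rw [map_zero, norm_zero] at hyπ
      exact hπpos.ne hyπ
    obtain ⟨m, -, hmc⟩ := hc y hy0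
    rw [hxc, ← hyπ, hmc]
    have hm : 1 ≤ m := by
      by_contra hcon
      have hm0 : m ≤ 0 := by omega
      have h3 : (1 : ℝ) ≤ c ^ m := by
        have := one_le_zpow_of_nonpos₀ hc0 hc1.le hm0
        exact this
      rw [← hmc, hyπ] at h3
      exact absurd hπ1 (not_lt.2 h3)
    calc c ^ m ≤ c ^ (1 : ℤ) := zpow_le_zpow_right_of_le_one₀ hc0 hc1.le hm
      _ = c := zpow_one c
  · -- `c ≤ ‖π‖`
    refine hπmax (ι x) (h10d_mem_loc ι x) ?_
    rw [hxc]
    exact hc1

end unif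

/-! ## The leaf -/

section main

variable {L K : Type} [Field L] [NumberField L] [Field K] [NumberField K] [Algebra L K]
  [IsGalois L K]

/-- The inert case of `FIUnitNorm`, at a fixed embedding. -/
theorem h82u_unitNorm_inert (hPow : LFPow) (hT : LFTeich) (hCyc : URCyc) (hFrob : URFrob)
    (hDich : NIDich) {p : ℕ} (hp : p.Prime) (hdeg : Module.finrank L K = p)
    (v : HeightOneSpectrum (𝓞 L)) (hram : v.asIdeal.ramificationIdxIn (𝓞 K) = 1)
    (hone : (v.asIdeal.primesOver (𝓞 K)).ncard = 1)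
    (ι : K →+* Om q) (hv : h10d_Induces (h10d_res L ι) v)
    (b : Lˣ) (hb : v.valuation L (b : L) = 1) : IsLocalNormAt L K v b := by
  have : Fact p.Prime := ⟨hp⟩
  obtain ⟨σ, g, hσ, hgσ, hcyc⟩ := h10d_exists_isCyc hp hdeg ι v hv hone
  rw [h10d_isLocalNormAt_iff hPow hp hdeg ι v hv σ hσ g hcyc.mem hgσ b]
  have hnorm1 : ‖h10d_res L ι (b : L)‖ = 1 := h10d_norm_eq_one_of_val_eq_one hv hb
  rcases hDich q p (h10d_loc (h10d_res L ι)) (h10d_loc ι) g hcyc with
    hKur | ⟨-, ϖ, -, π, hπ, hϖ, hpow⟩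
  · -- the unramified case
    obtain ⟨φ, hφ⟩ := hFrob q (h10d_loc (h10d_res L ι))
    have hcycφ : IsCyc (h10d_loc (h10d_res L ι)) (h10d_loc ι) p φ := by
      rw [hKur]
      exact hCyc q (h10d_loc (h10d_res L ι)) p φ hp.pos hφ
    obtain ⟨β, hβ, hβ1, hβN⟩ := h82n_urNorm hT hCyc q (h10d_loc (h10d_res L ι)) p φ hp.pos hφ
      (h10d_res L ι (b : L)) (h10d_mem_loc _ _) hnorm1
    rw [← hKur] at hβ
    refine ⟨β, hβ, ?_, ?_⟩
    · intro h0
      rw [h0, norm_zero] at hβ1
      exact zero_ne_one hβ1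
    · rw [h82u_normAlong_eq_of_isCyc hcyc hcycφ hβ]
      exact hβN
  · -- the totally ramified alternative is impossible
    exfalso
    obtain ⟨x, hx⟩ := v.intValuation_exists_uniformizer
    have hxv : v.valuation L ((x : 𝓞 L) : L) = WithZero.exp (-1 : ℤ) := by
      rw [← hx]
      exact v.valuation_of_algebraMap x
    have hlo : (h10d_place ι).asIdeal.LiesOver v.asIdeal :=
      (h10d_place_mem_primesOver ι v hv).2
    have he : v.asIdeal.ramificationIdx' (h10d_place ι).asIdeal = 1 := by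
      rw [Ideal.ramificationIdx'_eq_ramificationIdx v.asIdeal (h10d_place ι).asIdeal v.ne_bot,
        ← Ideal.ramificationIdxIn_eq_ramificationIdx v.asIdeal (h10d_place ι).asIdeal Gal(K/L)]
      exact hram
    have hlies := HeightOneSpectrum.valuation_liesOver K v (h10d_place ι) ((x : 𝓞 L) : L)
    rw [he, pow_one, hxv] at hlies
    have h1 : ‖π‖ = ‖h10d_res L ι ((x : 𝓞 L) : L)‖ := h82u_unif_norm hv hxv hπ
    have h2 : ‖ϖ‖ = ‖ι (algebraMap L K ((x : 𝓞 L) : L))‖ :=
      h82u_unif_norm (h10d_induces_place ι) hlies.symm hϖ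
    rw [h10d_res_apply] at h1
    rw [h2, h1] at hpow
    have hlt : ‖ι (algebraMap L K ((x : 𝓞 L) : L))‖ < 1 := by
      rw [← h1]
      exact hπ.2.2.1
    have hpos : 0 < ‖ι (algebraMap L K ((x : 𝓞 L) : L))‖ := by
      rw [← h1]
      exact norm_pos_iff.2 hπ.2.1
    have h3 : ‖ι (algebraMap L K ((x : 𝓞 L) : L))‖ ^ p <
        ‖ι (algebraMap L K ((x : 𝓞 L) : L))‖ ^ 1 :=
      pow_lt_pow_right_of_lt_one₀ hpos hlt hp.one_lt
    rw [pow_one, hpow] at h3
    exact lt_irrefl _ h3

/-- **FI-L3.** -/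
theorem h82u_fiUnitNorm (hSplit : FISplit) (hPow : LFPow) (hT : LFTeich) (hCyc : URCyc)
    (hFrob : URFrob) (hDich : NIDich) : FIUnitNorm := by
  intro p hp L K _ _ _ _ _ _ hdeg v hram b hb
  have hmax := v.isMaximal
  have h := Ideal.ncard_primesOver_mul_ramificationIdxIn_mul_inertiaDegIn v.asIdeal (𝓞 K) Gal(K/L)
  rw [IsGalois.card_aut_eq_finrank, hdeg] at h
  have hdvd : (v.asIdeal.primesOver (𝓞 K)).ncard ∣ p := ⟨_, h.symm⟩
  rcases (Nat.dvd_prime hp).1 hdvd with hone | hsplit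
  · obtain ⟨q, hqp, hq⟩ := h10d_exists_prime_mem v
    have : Fact q.Prime := ⟨hqp⟩
    obtain ⟨ι, hv⟩ := h10d_exists_embedding (K := K) v hq
    exact h82u_unitNorm_inert hPow hT hCyc hFrob hDich hp hdeg v hram hone ι hv b hb
  · exact hSplit p hp L K hdeg v hsplit b

end main

end

end Fermat.Agent.PT.Glob
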