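import Mathlib
import Fermat.Agent.PT.Glob.FI.H82UnitNorm
import Fermat.Agent.PT.Glob.FI.H19Split
import Fermat.Agent.PT.Loc.H34LFPow
import Fermat.Agent.PT.Loc.H34LFTeich
import Fermat.Agent.PT.Loc.LFImm39
import Fermat.Agent.PT.Loc.H66URConj
import Fermat.Agent.PT.Loc.H36URFrob
import Fermat.Agent.PT.Loc.H74NIDich

/-!
# W3-PT / PT-GLOB, block GLOB-FI, leaf FI-L3 (helper82): `FIUnitNorm`, unconditional

`h82u_fiUnitNorm_holds : FIUnitNorm`, by plugging the landed leaves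
(`h19s_fiSplit`, `h34lf_lfPow`, `h34lf_lfTeich`, `h34lf_lfUnif`, `h39lf_imm_of`, `h66v_urCyc`,
`h36_urFrob`, `h74n_nidich_of`) into `h82u_fiUnitNorm`.
-/

set_option autoImplicit false

namespace Fermat.Agent.PT.Glob

open Fermat.Agent.PT.Loc

/-- **FI-L3**, unconditional. -/
theorem h82u_fiUnitNorm_holds : FIUnitNorm :=
  h82u_fiUnitNorm h19s_fiSplit h34lf_lfPow h34lf_lfTeich (h66v_urCyc h34lf_lfTeich)
    (h36_urFrob h34lf_lfTeich)
    (h74n_nidich_of h34lf_lfUnif h34lf_lfTeich (h39lf_imm_of h34lf_lfUnif h34lf_lfTeich)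
      (h36_urFrob h34lf_lfTeich) (h66v_urCyc h34lf_lfTeich))

end Fermat.Agent.PT.Glob
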