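import Mathlib
import Fermat.Agent.PT.Glob.FI.Iface
import Fermat.Agent.PT.Units.SUnitHerbrand

/-!
# W3-PT / PT-GLOB, block GLOB-FI, leaf FI-L4 (helper36): `FIInertVal`

At an unramified place `v` of `L` with only one prime `w` of `K` above it, the valuation of a
local norm is a `p`-th power: `v(b) = v(N y) = w(N y) = ∏_σ w(σ y) = w(y)^p`.

Main result: `h36i_fiInertVal : FIInertVal`.
-/

set_option autoImplicit false

open NumberField IsDedekindDomain

namespace Fermat.Agent.PT.Glob

open Fermat.Agent.PT.Units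

section

variable {L K : Type} [Field L] [NumberField L] [Field K] [NumberField K] [Algebra L K]

/-- a local norm at `v` has the valuation of a global norm. -/
theorem h36i_val_eq_val_norm {v : HeightOneSpectrum (𝓞 L)} {b : Lˣ}
    (hb : IsLocalNormAt L K v b) :
    ∃ y : Kˣ, v.valuation L (b : L) = v.valuation L (Algebra.norm L (y : K)) := by
  obtain ⟨y, hy⟩ := hb 0
  refine ⟨y, ?_⟩
  have hlt : v.valuation L ((b : L) / Algebra.norm L (y : K) - 1) < 1 :=
    lt_of_le_of_lt hy (exp_neg_succ_lt_one 0)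
  have hval : v.valuation L ((b : L) / Algebra.norm L (y : K)) = 1 := by
    have := Valuation.map_one_add_of_lt (v := v.valuation L) hlt
    simpa using this
  have hN0 : Algebra.norm L (y : K) ≠ 0 := by
    rw [Ne, Algebra.norm_eq_zero_iff]
    exact y.ne_zero
  have hvN0 : v.valuation L (Algebra.norm L (y : K)) ≠ 0 := by
    rw [Ne, map_eq_zero]
    exact hN0
  rw [map_div₀] at hval
  exact (div_eq_one_iff_eq hvN0).1 hval

/-- with only one prime above `v`, all conjugates have the same valuation. -/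
theorem h36i_val_norm_up [IsGalois L K] {v : HeightOneSpectrum (𝓞 L)}
    (hone : (v.asIdeal.primesOver (𝓞 K)).ncard = 1) (w : HeightOneSpectrum (𝓞 K))
    (hw : w.under (𝓞 L) = v) (y : K) :
    w.valuation K (algebraMap L K (Algebra.norm L y)) =
      w.valuation K y ^ Module.finrank L K := by
  obtain ⟨P, hP⟩ := Set.ncard_eq_one.1 hone
  have hmem : ∀ w' : HeightOneSpectrum (𝓞 K), w'.under (𝓞 L) = v → w'.asIdeal = P := by
    intro w' hw'
    have h1 : w'.asIdeal ∈ v.asIdeal.primesOver (𝓞 K) := by
      refine ⟨w'.isPrime, ⟨?_⟩⟩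
      rw [← hw']
      rfl
    rw [hP] at h1
    exact h1
  have huniq : ∀ w' : HeightOneSpectrum (𝓞 K), w'.under (𝓞 L) = v → w' = w := by
    intro w' hw'
    apply HeightOneSpectrum.ext
    rw [hmem w' hw', hmem w hw]
  have hgal : ∀ σ : Gal(K/L), w.valuation K (σ y) = w.valuation K y := by
    intro σ
    rw [SU_valuation_gal, huniq (SU_pull σ w) (by rw [SU_pull_under, hw])]
  rw [Algebra.norm_eq_prod_automorphisms, map_prod]
  simp only [hgal, Finset.prod_const, Finset.card_univ]
  rw [← Nat.card_eq_fintype_card, IsGalois.card_aut_eq_finrank]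

end

/-- **FI-L4.** -/
theorem h36i_fiInertVal : FIInertVal := by
  intro p hp L K _ _ _ _ _ _ hdeg v hram hone b hb
  obtain ⟨y, hy⟩ := h36i_val_eq_val_norm hb
  obtain ⟨w, hw⟩ := SU_exists_above (K := L) (L := K) v
  have hup := h36i_val_norm_up hone w hw (y : K)
  rw [hdeg] at hup
  have hlo : w.asIdeal.LiesOver v.asIdeal := ⟨by rw [← hw]; rfl⟩
  have he : v.asIdeal.ramificationIdx' w.asIdeal = 1 := by
    rw [Ideal.ramificationIdx'_eq_ramificationIdx v.asIdeal w.asIdeal v.ne_bot,
      ← Ideal.ramificationIdxIn_eq_ramificationIdx v.asIdeal w.asIdeal Gal(K/L)]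
    exact hram
  have hlies := HeightOneSpectrum.valuation_liesOver K v w (Algebra.norm L (y : K))
  rw [he, pow_one] at hlies
  have hy0 : w.valuation K (y : K) ≠ 0 := by
    rw [Ne, map_eq_zero]
    exact y.ne_zero
  refine ⟨WithZero.log (w.valuation K (y : K)), ?_⟩
  rw [hy, hlies, hup, ← Int.nsmul_eq_mul, WithZero.exp_nsmul, WithZero.exp_log hy0]

end Fermat.Agent.PT.Glob
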