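import Fermat.Agent.PT.Glob.FI.H33LocalGlobal
import Fermat.Agent.PT.Glob.FI.H36InertVal

/-!
# W3-PT / PT-GLOB, leaf FI-G4, unconditional form (helper33)

`h33f_fiLocalGlobal : FILocalGlobal`, from `h33f_fiLocalGlobal_of` and helper36's
`h36i_fiInertVal : FIInertVal`.
-/

namespace Fermat.Agent.PT.Glob

/-- **FI-G4**, unconditional. -/
theorem h33f_fiLocalGlobal : FILocalGlobal := h33f_fiLocalGlobal_of h36i_fiInertVal

end Fermat.Agent.PT.Glob
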