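import Mathlib
import Fermat.Agent.PT.Glob.FI.Iface
import Fermat.Agent.PT.Units.Kummer
import Fermat.Agent.PT.Units.SUnitHerbrand

/-!
# W3-PT / PT-GLOB / GLOB-FI, leaf FI-G2: `Ĥ¹` of the `T'`-units vanishes

`h67h_fiH1 : FIH1`.  For `K / L` cyclic of prime degree with generator `σ`, `T` admissible and `y`
a `T'`-unit of `K` of norm `1`, there is a `T'`-unit `z` with `y = σ z / z`.

Proof: Hilbert 90 gives `z₀ ∈ Kˣ` with `y = σ z₀ / z₀`.  Outside `T'` the valuations of `z₀` are
invariant under `σ`, hence under the whole Galois group, hence constant on the primes above a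
given prime `v ∉ T` of `L`.  As `v` is unramified and the `T`-class group of `L` is trivial there
is `a ∈ Lˣ` with the same valuations as `z₀` outside `T'`; put `z = z₀ / a`.
-/

set_option autoImplicit false
set_option linter.unusedSectionVars false

open NumberField IsDedekindDomain
open Fermat.Agent.PT.Units
open scoped Pointwise

namespace Fermat.Agent.PT.Glob

section

variable {L K : Type} [Field L] [NumberField L] [Field K] [NumberField K] [Algebra L K]

/-- `SU_pull σ w` is the prime `σ⁻¹ w`. -/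
theorem h67h_pull_asIdeal (σ : Gal(K/L)) (w : HeightOneSpectrum (𝓞 K)) :
    (SU_pull σ w).asIdeal = σ⁻¹ • w.asIdeal := by
  ext x
  rw [SU_pull_asIdeal, Ideal.mem_comap, Ideal.mem_pointwise_smul_iff_inv_smul_mem, inv_inv]
  have : (SU_gR σ : 𝓞 K →+* 𝓞 K) x = σ • x := by
    apply Subtype.ext
    exact SU_gR_coe σ x
  rw [this]

/-- membership in `placesAbove` only depends on the prime below. -/
theorem h67h_mem_placesAbove_iff (T : Set (HeightOneSpectrum (𝓞 L)))
    (w : HeightOneSpectrum (𝓞 K)) :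
    w ∈ placesAbove L K T ↔ w.under (𝓞 L) ∈ T := by
  constructor
  · rintro ⟨v, hv, hwv⟩
    have : w.under (𝓞 L) = v := HeightOneSpectrum.ext hwv
    rw [this]; exact hv
  · intro h
    exact ⟨w.under (𝓞 L), h, rfl⟩

theorem h67h_pull_mem_placesAbove_iff (T : Set (HeightOneSpectrum (𝓞 L))) (τ : Gal(K/L))
    (w : HeightOneSpectrum (𝓞 K)) :
    SU_pull τ w ∈ placesAbove L K T ↔ w ∈ placesAbove L K T := by
  rw [h67h_mem_placesAbove_iff, h67h_mem_placesAbove_iff, SU_pull_under]

/-- the set of `τ` preserving the valuations of `x` outside `T'` is closed under products. -/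
theorem h67h_inv_mul (T : Set (HeightOneSpectrum (𝓞 L))) (x : K) (τ₁ τ₂ : Gal(K/L))
    (h₁ : ∀ w : HeightOneSpectrum (𝓞 K), w ∉ placesAbove L K T →
      w.valuation K (τ₁ x) = w.valuation K x)
    (h₂ : ∀ w : HeightOneSpectrum (𝓞 K), w ∉ placesAbove L K T →
      w.valuation K (τ₂ x) = w.valuation K x) :
    ∀ w : HeightOneSpectrum (𝓞 K), w ∉ placesAbove L K T →
      w.valuation K ((τ₁ * τ₂) x) = w.valuation K x := by
  intro w hw
  have hw' : SU_pull τ₁ w ∉ placesAbove L K T := by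
    rw [h67h_pull_mem_placesAbove_iff]; exact hw
  calc w.valuation K ((τ₁ * τ₂) x) = w.valuation K (τ₁ (τ₂ x)) := rfl
    _ = (SU_pull τ₁ w).valuation K (τ₂ x) := SU_valuation_gal τ₁ w (τ₂ x)
    _ = (SU_pull τ₁ w).valuation K x := h₂ _ hw'
    _ = w.valuation K (τ₁ x) := (SU_valuation_gal τ₁ w x).symm
    _ = w.valuation K x := h₁ w hw

/-- if a generator preserves the valuations of `x` outside `T'`, so does every element of the
(finite) Galois group. -/
theorem h67h_inv_all [FiniteDimensional L K] (T : Set (HeightOneSpectrum (𝓞 L))) (x : K)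
    (σ : Gal(K/L)) (hσ : ∀ τ : Gal(K/L), τ ∈ Subgroup.zpowers σ)
    (h : ∀ w : HeightOneSpectrum (𝓞 K), w ∉ placesAbove L K T →
      w.valuation K (σ x) = w.valuation K x) (τ : Gal(K/L)) :
    ∀ w : HeightOneSpectrum (𝓞 K), w ∉ placesAbove L K T →
      w.valuation K (τ x) = w.valuation K x := by
  have hpow : ∀ n : ℕ, ∀ w : HeightOneSpectrum (𝓞 K), w ∉ placesAbove L K T →
      w.valuation K ((σ ^ n) x) = w.valuation K x := by
    intro n
    induction n with
    | zero => intro w _; simp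
    | succ k ih =>
      rw [pow_succ]
      exact h67h_inv_mul T x (σ ^ k) σ ih h
  obtain ⟨n, rfl⟩ := (mem_powers_iff_mem_zpowers (x := σ) (y := τ)).2 (hσ τ)
  exact hpow n

/-- two primes of `K` above the same prime of `L` are conjugate; valuation form. -/
theorem h67h_exists_gal [IsGalois L K] (w₁ w₂ : HeightOneSpectrum (𝓞 K))
    (h : w₁.under (𝓞 L) = w₂.under (𝓞 L)) :
    ∃ τ : Gal(K/L), ∀ x : K, w₂.valuation K x = w₁.valuation K (τ x) := by
  have h' : w₁.asIdeal.under (𝓞 L) = w₂.asIdeal.under (𝓞 L) :=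
    congrArg HeightOneSpectrum.asIdeal h
  obtain ⟨g, hg⟩ := Algebra.IsInvariant.exists_smul_of_under_eq (𝓞 L) (𝓞 K) Gal(K/L)
    w₁.asIdeal w₂.asIdeal h'
  refine ⟨g⁻¹, fun x => ?_⟩
  have hw : w₂ = SU_pull g⁻¹ w₁ := by
    apply HeightOneSpectrum.ext
    rw [h67h_pull_asIdeal, inv_inv, hg]
  rw [SU_valuation_gal, ← hw]

/-- the set of primes at which a nonzero element is not a unit is finite. -/
theorem h67h_finite_ne_one (x : Kˣ) :
    {w : HeightOneSpectrum (𝓞 K) | w.valuation K (x : K) ≠ 1}.Finite := by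
  have h1 := HeightOneSpectrum.Support.finite (𝓞 K) (x : K)
  have h2 := HeightOneSpectrum.Support.finite (𝓞 K) ((x⁻¹ : Kˣ) : K)
  refine (h1.union h2).subset ?_
  intro w hw
  rcases lt_or_gt_of_ne hw with hlt | hgt
  · right
    show 1 < w.valuation K ((x⁻¹ : Kˣ) : K)
    rw [Units.val_inv_eq_inv_val, map_inv₀]
    exact (one_lt_inv₀ (by
      rw [Valuation.pos_iff]; exact x.ne_zero)).2 hlt
  · left
    exact hgt

/-- at an unramified prime the valuations above and below agree on the base field. -/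
theorem h67h_valuation_up_unram [IsGalois L K] (w : HeightOneSpectrum (𝓞 K))
    (hunr : (w.under (𝓞 L)).asIdeal.ramificationIdxIn (𝓞 K) = 1) (a : L) :
    w.valuation K (algebraMap L K a) = (w.under (𝓞 L)).valuation L a := by
  have hlo : w.asIdeal.LiesOver (w.under (𝓞 L)).asIdeal := ⟨rfl⟩
  have h := HeightOneSpectrum.valuation_liesOver K (w.under (𝓞 L)) w a
  have he : (w.under (𝓞 L)).asIdeal.ramificationIdx' w.asIdeal = 1 := by
    rw [Ideal.ramificationIdx'_eq_ramificationIdx _ _ (w.under (𝓞 L)).ne_bot,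
      ← Ideal.ramificationIdxIn_eq_ramificationIdx (w.under (𝓞 L)).asIdeal w.asIdeal Gal(K/L)]
    exact hunr
  rw [he, pow_one] at h
  exact h.symm

/-- a trivial `T`-class group in the form of `PT/Units/Kummer.lean`. -/
theorem h67h_isLarge_of_trivial {T : Set (HeightOneSpectrum (𝓞 L))}
    (h : TClassGroupTrivial L T) : SU_IsLarge L T := by
  intro w
  by_cases hw : w ∈ T
  · refine ⟨1, fun h' => absurd hw h', fun v _ _ => ?_⟩
    rw [ofMul_one, map_zero]
  · obtain ⟨x, hx1, hx2⟩ := h w hw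
    refine ⟨x, fun _ => ?_, fun v hv hvw => ?_⟩
    · have := SU_exp_ord L w x
      rw [hx1] at this
      exact WithZero.exp_injective this
    · rw [SU_ord_eq_zero_iff]
      exact hx2 v hv hvw

end

/-- **FI-G2**: `Ĥ¹` of the `T'`-units vanishes. -/
theorem h67h_fiH1 : FIH1 := by
  classical
  intro p hp L K _ _ _ _ _ _ hdeg T hT σ hσ y hy hN
  have hcyc : IsCyclic Gal(K/L) := ⟨σ, hσ⟩
  -- Hilbert 90
  obtain ⟨z₀, hyz⟩ : ∃ z₀ : Kˣ, (y : K) = σ (z₀ : K) / (z₀ : K) := by
    obtain ⟨u, hu⟩ := groupCohomology.exists_div_of_norm_eq_one (K := L) (L := K) hσ hN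
    refine ⟨u⁻¹, ?_⟩
    have hσu : σ (u : K) ≠ 0 := by
      rw [Ne, map_eq_zero]; exact u.ne_zero
    have hu0 : (u : K) ≠ 0 := u.ne_zero
    rw [Units.val_inv_eq_inv_val, map_inv₀, ← hu]
    field_simp
  set T' := placesAbove L K (T : Set (HeightOneSpectrum (𝓞 L))) with hT'
  -- invariance of the valuations of `z₀` outside `T'`
  have hinvσ : ∀ w : HeightOneSpectrum (𝓞 K), w ∉ T' →
      w.valuation K (σ (z₀ : K)) = w.valuation K (z₀ : K) := by
    intro w hw
    have h1 := hy w hw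
    rw [hyz, map_div₀] at h1
    have hz0 : w.valuation K (z₀ : K) ≠ 0 := by
      rw [Ne, Valuation.zero_iff]; exact z₀.ne_zero
    rwa [div_eq_one_iff_eq hz0] at h1
  have hinv := h67h_inv_all (T : Set (HeightOneSpectrum (𝓞 L))) (z₀ : K) σ hσ hinvσ
  -- constancy on the primes above a prime of `L`
  have hconst : ∀ w₁ w₂ : HeightOneSpectrum (𝓞 K), w₁ ∉ T' →
      w₁.under (𝓞 L) = w₂.under (𝓞 L) →
      w₂.valuation K (z₀ : K) = w₁.valuation K (z₀ : K) := by
    intro w₁ w₂ hw₁ h12
    obtain ⟨τ, hτ⟩ := h67h_exists_gal w₁ w₂ h12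
    rw [hτ, hinv τ w₁ hw₁]
  -- a chosen prime above every prime of `L`
  choose W hW using fun v : HeightOneSpectrum (𝓞 L) => SU_exists_above (L := K) v
  set nfun : HeightOneSpectrum (𝓞 L) → ℤ :=
    fun v => SU_ord K (W v) (Additive.ofMul z₀) with hnfun
  have hsupp : (Function.support nfun).Finite := by
    refine ((h67h_finite_ne_one z₀).image (fun w => w.under (𝓞 L))).subset ?_
    intro v hv
    refine ⟨W v, ?_, hW v⟩
    show (W v).valuation K (z₀ : K) ≠ 1
    intro h1
    exact hv ((SU_ord_eq_zero_iff K (W v) z₀).2 h1)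
  obtain ⟨a, ha⟩ := (h67h_isLarge_of_trivial hT.classL).exists_ord_eq
    (Finsupp.ofSupportFinite nfun hsupp)
  refine ⟨z₀ * (Units.map (algebraMap L K : L →* K) a)⁻¹, fun w hw => ?_, ?_⟩
  · -- `z` is a `T'`-unit
    have hv : w.under (𝓞 L) ∉ (T : Set (HeightOneSpectrum (𝓞 L))) := fun h =>
      hw ((h67h_mem_placesAbove_iff _ w).2 h)
    have hunr := hT.unramified (w.under (𝓞 L)) (fun h => hv h)
    have h1 : w.valuation K (algebraMap L K (a : L)) = (w.under (𝓞 L)).valuation L (a : L) :=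
      h67h_valuation_up_unram w hunr a
    have h2 : (w.under (𝓞 L)).valuation L (a : L) = (W (w.under (𝓞 L))).valuation K (z₀ : K) := by
      rw [← SU_exp_ord L, ha _ hv, ← SU_exp_ord K]
      rfl
    have hWnot : W (w.under (𝓞 L)) ∉ T' := by
      rw [hT', h67h_mem_placesAbove_iff, hW]; exact hv
    have h3 : w.valuation K (z₀ : K) = (W (w.under (𝓞 L))).valuation K (z₀ : K) :=
      hconst _ w hWnot (hW _)
    have hz0 : w.valuation K (z₀ : K) ≠ 0 := by
      rw [Ne, Valuation.zero_iff]; exact z₀.ne_zero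
    have hcoe : ((z₀ * (Units.map (algebraMap L K : L →* K) a)⁻¹ : Kˣ) : K) =
        (z₀ : K) * (algebraMap L K (a : L))⁻¹ := by
      simp
    rw [hcoe, map_mul, map_inv₀, h1, h2, ← h3]
    exact mul_inv_cancel₀ hz0
  · -- `y = σ z / z`
    have ha0 : algebraMap L K (a : L) ≠ 0 := by
      rw [Ne, map_eq_zero]; exact a.ne_zero
    have hz0 : (z₀ : K) ≠ 0 := z₀.ne_zero
    have hcoe : ((z₀ * (Units.map (algebraMap L K : L →* K) a)⁻¹ : Kˣ) : K) =
        (z₀ : K) * (algebraMap L K (a : L))⁻¹ := by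
      simp
    have hσz : σ (z₀ : K) ≠ 0 := by
      rw [Ne, map_eq_zero]; exact hz0
    rw [hyz, hcoe, map_mul, map_inv₀, σ.commutes]
    field_simp

end Fermat.Agent.PT.Glob
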