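import Fermat.Agent.PT.Glob.FI.Iface
import Fermat.Agent.PT.Units.SUnitHerbrand

/-!
# W3-PT / PT-GLOB, block GLOB-FI, leaf FI-G3: `FINormUnit`

helper72.  `K / L` Galois of prime degree `p`, `T` admissible, `T'` the primes of `K` above `T`.
If the norm of `y ∈ Kˣ` is a `T`-unit, then there is a `T'`-unit `y'` with the same norm.

Proof: for a prime `w ∉ T'` of `K`, the sum of the orders of `y` along the Galois orbit of `w`
is the order of the norm, i.e. `0`.  If `w` is fixed by the Galois group this gives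
`ord_w y = 0`.  Otherwise the orbit is free; with `c` of order `-1` at `w` and `0` at the other
primes outside `T'` (`classK`), the element `u = ∏_τ (τ⁻¹ c) ^ ord_{τ w} y` has norm `1` and
`y * u` has order `0` along the orbit of `w` and the same order as `y` elsewhere outside `T'`.
Induction on the number of primes outside `T'` in the support of `y`.
-/

set_option autoImplicit false
set_option linter.unusedSectionVars false

open NumberField IsDedekindDomain

namespace Fermat.Agent.PT.Glob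

open Fermat.Agent.PT.Units

section

variable {L K : Type} [Field L] [NumberField L] [Field K] [NumberField K] [Algebra L K]

theorem h72n_mem_placesAbove (T : Set (HeightOneSpectrum (𝓞 L)))
    (w : HeightOneSpectrum (𝓞 K)) :
    w ∈ placesAbove L K T ↔ w.under (𝓞 L) ∈ T := by
  constructor
  · rintro ⟨v, hv, h⟩
    have : w.under (𝓞 L) = v := HeightOneSpectrum.ext (by rw [← h]; rfl)
    rwa [this]
  · intro h
    exact ⟨w.under (𝓞 L), h, rfl⟩

theorem h72n_pull_mul (σ τ : Gal(K/L)) (w : HeightOneSpectrum (𝓞 K)) :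
    SU_pull (σ * τ) w = SU_pull τ (SU_pull σ w) := by
  apply HeightOneSpectrum.ext
  ext r
  simp only [SU_pull_asIdeal, Ideal.mem_comap, RingHom.coe_coe]
  have : SU_gR (σ * τ) r = SU_gR σ (SU_gR τ r) := by
    apply FaithfulSMul.algebraMap_injective (𝓞 K) K
    rw [SU_gR_coe, SU_gR_coe, SU_gR_coe]
    rfl
  rw [this]

theorem h72n_pull_one (w : HeightOneSpectrum (𝓞 K)) : SU_pull (1 : Gal(K/L)) w = w := by
  apply HeightOneSpectrum.ext
  ext r
  simp only [SU_pull_asIdeal, Ideal.mem_comap, RingHom.coe_coe]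
  have : SU_gR (1 : Gal(K/L)) r = r := by
    apply FaithfulSMul.algebraMap_injective (𝓞 K) K
    rw [SU_gR_coe]
    rfl
  rw [this]

theorem h72n_pull_inv_pull (σ : Gal(K/L)) (w : HeightOneSpectrum (𝓞 K)) :
    SU_pull σ⁻¹ (SU_pull σ w) = w := by
  rw [← h72n_pull_mul, mul_inv_cancel, h72n_pull_one]

theorem h72n_pull_pull_inv (σ : Gal(K/L)) (w : HeightOneSpectrum (𝓞 K)) :
    SU_pull σ (SU_pull σ⁻¹ w) = w := by
  rw [← h72n_pull_mul, inv_mul_cancel, h72n_pull_one]

/-- The stabiliser of a prime. -/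
def h72n_stab (w : HeightOneSpectrum (𝓞 K)) : Subgroup Gal(K/L) where
  carrier := {τ | SU_pull τ w = w}
  one_mem' := h72n_pull_one w
  mul_mem' := fun {a b} ha hb => by
    show SU_pull (a * b) w = w
    have ha' : SU_pull a w = w := ha
    have hb' : SU_pull b w = w := hb
    rw [h72n_pull_mul, ha', hb']
  inv_mem' := fun {a} ha => by
    show SU_pull a⁻¹ w = w
    have ha' : SU_pull a w = w := ha
    have := h72n_pull_inv_pull a w
    rwa [ha'] at this

theorem h72n_mem_stab (w : HeightOneSpectrum (𝓞 K)) (τ : Gal(K/L)) :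
    τ ∈ h72n_stab w ↔ SU_pull τ w = w := Iff.rfl

/-- The order of `τ y` at `w` is the order of `y` at `τ⁻¹ w`. -/
theorem h72n_ord_gal (τ : Gal(K/L)) (w : HeightOneSpectrum (𝓞 K)) (y : Kˣ) :
    SU_ord K w (Additive.ofMul (Units.map (τ : K →* K) y))
      = SU_ord K (SU_pull τ w) (Additive.ofMul y) := by
  have h := SU_valuation_gal τ w (y : K)
  rw [← SU_exp_ord K (SU_pull τ w) y] at h
  have h2 := SU_exp_ord K w (Units.map (τ : K →* K) y)
  have h3 : ((Units.map (τ : K →* K) y : Kˣ) : K) = τ (y : K) := rfl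
  rw [h3, h] at h2
  exact WithZero.exp_inj.mp h2

/-- The sum of the orders of `y` along the Galois orbit of `w` vanishes if the norm of `y` is a
unit at the prime below `w`. -/
theorem h72n_sum_ord [IsGalois L K] (y : Kˣ) (w : HeightOneSpectrum (𝓞 K))
    (h : (w.under (𝓞 L)).valuation L (Algebra.norm L (y : K)) = 1) :
    ∑ τ : Gal(K/L), SU_ord K (SU_pull τ w) (Additive.ofMul y) = 0 := by
  classical
  have h1 : ∀ τ : Gal(K/L), SU_ord K (SU_pull τ w) (Additive.ofMul y)
      = SU_ord K w (Additive.ofMul (Units.map (τ : K →* K) y)) :=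
    fun τ => (h72n_ord_gal τ w y).symm
  simp_rw [h1]
  rw [← map_sum, ← ofMul_prod, SU_ord_eq_zero_iff]
  have h2 : ((∏ τ : Gal(K/L), Units.map (τ : K →* K) y : Kˣ) : K)
      = algebraMap L K (Algebra.norm L (y : K)) := by
    rw [Algebra.norm_eq_prod_automorphisms, Units.coe_prod]
    rfl
  rw [h2]
  obtain ⟨e, -, he⟩ := SU_valuation_up (K := L) (L := K) w (Algebra.norm L (y : K))
  rw [he, h, one_pow]

/-- The norm on units, additively. -/
noncomputable def h72n_Nm : Additive Kˣ →+ Additive Lˣ :=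
  MonoidHom.toAdditive (Units.map (Algebra.norm L : K →* L))

theorem h72n_Nm_gal (τ : Gal(K/L)) (c : Kˣ) :
    h72n_Nm (L := L) (Additive.ofMul (Units.map (τ : K →* K) c))
      = h72n_Nm (L := L) (Additive.ofMul c) := by
  apply Additive.toMul.injective
  apply Units.ext
  show Algebra.norm L (τ (c : K)) = Algebra.norm L (c : K)
  exact Algebra.norm_eq_of_algEquiv τ (c : K)

theorem h72n_Nm_eq_zero_iff (u : Additive Kˣ) :
    h72n_Nm (L := L) u = 0 ↔ Algebra.norm L ((Additive.toMul u : Kˣ) : K) = 1 := by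
  constructor
  · intro h
    have := congrArg (fun z : Additive Lˣ => ((Additive.toMul z : Lˣ) : L)) h
    simpa [h72n_Nm] using this
  · intro h
    apply Additive.toMul.injective
    apply Units.ext
    simpa [h72n_Nm] using h

/-- One step: killing the orders of `y` along a free orbit. -/
theorem h72n_step [IsGalois L K] (T : Set (HeightOneSpectrum (𝓞 L)))
    (hclass : TClassGroupTrivial K (placesAbove L K T)) (y : Kˣ)
    (w₀ : HeightOneSpectrum (𝓞 K)) (hw₀ : w₀ ∉ placesAbove L K T)
    (hfree : h72n_stab (L := L) w₀ = ⊥)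
    (hsum : ∑ τ : Gal(K/L), SU_ord K (SU_pull τ w₀) (Additive.ofMul y) = 0) :
    ∃ y' : Kˣ, Algebra.norm L (y' : K) = Algebra.norm L (y : K) ∧
      SU_ord K w₀ (Additive.ofMul y') = 0 ∧
      ∀ w : HeightOneSpectrum (𝓞 K), w ∉ placesAbove L K T →
        SU_ord K w (Additive.ofMul y) = 0 → SU_ord K w (Additive.ofMul y') = 0 := by
  classical
  obtain ⟨c, hc0, hc1⟩ := hclass w₀ hw₀
  have hc0' : SU_ord K w₀ (Additive.ofMul c) = -1 := by
    rw [← SU_exp_ord] at hc0
    exact WithZero.exp_inj.mp hc0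
  have hc1' : ∀ w' : HeightOneSpectrum (𝓞 K), w' ∉ placesAbove L K T → w' ≠ w₀ →
      SU_ord K w' (Additive.ofMul c) = 0 := by
    intro w' hw' hne
    rw [SU_ord_eq_zero_iff]
    exact hc1 w' hw' hne
  have hstable : ∀ (τ : Gal(K/L)) (w : HeightOneSpectrum (𝓞 K)),
      w ∉ placesAbove L K T → SU_pull τ w ∉ placesAbove L K T := by
    intro τ w hw
    rw [h72n_mem_placesAbove] at hw ⊢
    rwa [SU_pull_under]
  set a : Gal(K/L) → ℤ := fun τ => SU_ord K (SU_pull τ w₀) (Additive.ofMul y) with ha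
  set U : Additive Kˣ :=
    ∑ τ : Gal(K/L), (a τ) • Additive.ofMul (Units.map ((τ⁻¹ : Gal(K/L)) : K →* K) c) with hU
  -- the order of `U`
  have hordU : ∀ w : HeightOneSpectrum (𝓞 K), w ∉ placesAbove L K T →
      SU_ord K w U = ∑ τ : Gal(K/L), a τ * (if w = SU_pull τ w₀ then -1 else 0) := by
    intro w hw
    rw [hU, map_sum]
    refine Finset.sum_congr rfl fun τ _ => ?_
    rw [map_zsmul, smul_eq_mul, h72n_ord_gal]
    congr 1
    split_ifs with hcase
    · rw [hcase, h72n_pull_inv_pull]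
      exact hc0'
    · apply hc1' _ (hstable _ _ hw)
      intro h
      apply hcase
      rw [← h, h72n_pull_pull_inv]
  -- uniqueness of the parameter along the free orbit
  have huniq : ∀ τ τ₀ : Gal(K/L), SU_pull τ₀ w₀ = SU_pull τ w₀ → τ = τ₀ := by
    intro τ τ₀ h
    have h1 : SU_pull (τ * τ₀⁻¹) w₀ = w₀ := by
      rw [h72n_pull_mul, ← h, h72n_pull_inv_pull]
    have h2 : τ * τ₀⁻¹ ∈ h72n_stab (L := L) w₀ := h1
    rw [hfree, Subgroup.mem_bot] at h2
    exact mul_inv_eq_one.mp h2
  have hordU_orbit : ∀ τ₀ : Gal(K/L), SU_ord K (SU_pull τ₀ w₀) U = - a τ₀ := by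
    intro τ₀
    rw [hordU _ (hstable τ₀ w₀ hw₀)]
    have : ∀ τ : Gal(K/L), a τ * (if SU_pull τ₀ w₀ = SU_pull τ w₀ then (-1 : ℤ) else 0)
        = if τ = τ₀ then - a τ₀ else 0 := by
      intro τ
      by_cases h : τ = τ₀
      · subst h
        simp
      · have h' : ¬ SU_pull τ₀ w₀ = SU_pull τ w₀ := fun hh => h (huniq τ τ₀ hh)
        simp [h, h']
    simp_rw [this]
    rw [Finset.sum_ite_eq' Finset.univ τ₀]
    simp
  have hordU_off : ∀ w : HeightOneSpectrum (𝓞 K), w ∉ placesAbove L K T →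
      (∀ τ : Gal(K/L), w ≠ SU_pull τ w₀) → SU_ord K w U = 0 := by
    intro w hw hoff
    rw [hordU w hw]
    apply Finset.sum_eq_zero
    intro τ _
    rw [if_neg (hoff τ), mul_zero]
  -- the norm of `U`
  have hNU : h72n_Nm (L := L) U = 0 := by
    rw [hU, map_sum]
    have : ∀ τ : Gal(K/L),
        h72n_Nm (L := L) ((a τ) • Additive.ofMul (Units.map ((τ⁻¹ : Gal(K/L)) : K →* K) c))
          = (a τ) • h72n_Nm (L := L) (Additive.ofMul c) := by
      intro τ
      rw [map_zsmul, h72n_Nm_gal]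
    simp_rw [this]
    refine (Finset.sum_smul (s := Finset.univ) (f := a)
      (x := h72n_Nm (L := L) (Additive.ofMul c))).symm.trans ?_
    rw [hsum, zero_smul]
  refine ⟨Additive.toMul (Additive.ofMul y + U), ?_, ?_, ?_⟩
  · have h1 : Additive.toMul (Additive.ofMul y + U) = y * Additive.toMul U := rfl
    rw [h1, Units.val_mul, map_mul, (h72n_Nm_eq_zero_iff U).mp hNU, mul_one]
  · rw [ofMul_toMul, map_add]
    have := hordU_orbit 1
    rw [h72n_pull_one] at this
    rw [this, ha]
    simp only [h72n_pull_one]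
    ring
  · intro w hw hy
    rw [ofMul_toMul, map_add, hy, zero_add]
    by_cases horb : ∃ τ₀ : Gal(K/L), w = SU_pull τ₀ w₀
    · obtain ⟨τ₀, rfl⟩ := horb
      rw [hordU_orbit τ₀]
      show -SU_ord K (SU_pull τ₀ w₀) (Additive.ofMul y) = 0
      rw [hy, neg_zero]
    · exact hordU_off w hw (fun τ₀ h => horb ⟨τ₀, h⟩)

/-- The primes outside `T'` in the support of `y`. -/
def h72n_supp (T : Set (HeightOneSpectrum (𝓞 L))) (y : Kˣ) : Set (HeightOneSpectrum (𝓞 K)) :=
  {w | w ∉ placesAbove L K T ∧ SU_ord K w (Additive.ofMul y) ≠ 0}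

theorem h72n_supp_finite (T : Set (HeightOneSpectrum (𝓞 L))) (y : Kˣ) :
    (h72n_supp (L := L) T y).Finite := by
  have h1 := HeightOneSpectrum.Support.finite (𝓞 K) (y : K)
  have h2 := HeightOneSpectrum.Support.finite (𝓞 K) ((y⁻¹ : Kˣ) : K)
  apply (h1.union h2).subset
  rintro w ⟨-, hw⟩
  rw [Ne, SU_ord_eq_zero_iff] at hw
  have hy0 : w.valuation K (y : K) ≠ 0 := by
    rw [Ne, map_eq_zero]
    exact y.ne_zero
  rcases lt_or_gt_of_ne hw with h | h
  · right
    show 1 < w.valuation K ((y⁻¹ : Kˣ) : K)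
    rw [Units.val_inv_eq_inv_val, map_inv₀]
    exact (one_lt_inv₀ (zero_lt_iff.mpr hy0)).mpr h
  · left
    exact h

theorem h72n_unit_of_supp_empty (T : Set (HeightOneSpectrum (𝓞 L))) (y : Kˣ)
    (h : h72n_supp (L := L) T y = ∅) (w : HeightOneSpectrum (𝓞 K))
    (hw : w ∉ placesAbove L K T) : w.valuation K (y : K) = 1 := by
  by_contra hne
  have : w ∈ h72n_supp (L := L) T y := ⟨hw, by rwa [Ne, SU_ord_eq_zero_iff]⟩
  rw [h] at this
  exact this

theorem h72n_main [IsGalois L K] (p : ℕ) (hp : p.Prime) (hdeg : Module.finrank L K = p)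
    (T : Finset (HeightOneSpectrum (𝓞 L))) (hT : Admissible L K p T) :
    ∀ (n : ℕ) (y : Kˣ),
      (∀ v : HeightOneSpectrum (𝓞 L), v ∉ T → v.valuation L (Algebra.norm L (y : K)) = 1) →
      (h72n_supp (L := L) (T : Set (HeightOneSpectrum (𝓞 L))) y).ncard ≤ n →
      ∃ y' : Kˣ, (∀ w : HeightOneSpectrum (𝓞 K),
        w ∉ placesAbove L K (T : Set (HeightOneSpectrum (𝓞 L))) → w.valuation K (y' : K) = 1) ∧
        Algebra.norm L (y' : K) = Algebra.norm L (y : K) := by
  intro n
  induction n with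
  | zero =>
    intro y _ hn
    have hempty : h72n_supp (L := L) (T : Set (HeightOneSpectrum (𝓞 L))) y = ∅ :=
      (Set.ncard_eq_zero (h72n_supp_finite _ y)).mp (Nat.le_zero.mp hn)
    exact ⟨y, fun w hw => h72n_unit_of_supp_empty _ y hempty w hw, rfl⟩
  | succ n ih =>
    intro y hy hn
    by_cases hempty : h72n_supp (L := L) (T : Set (HeightOneSpectrum (𝓞 L))) y = ∅
    · exact ⟨y, fun w hw => h72n_unit_of_supp_empty _ y hempty w hw, rfl⟩
    · obtain ⟨w₀, hw₀⟩ := Set.nonempty_iff_ne_empty.mpr hempty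
      have hw₀T := hw₀.1
      have hw₀y := hw₀.2
      have hv : w₀.under (𝓞 L) ∉ T := by
        intro h
        apply hw₀T
        rw [h72n_mem_placesAbove]
        exact Finset.mem_coe.mpr h
      have hsum := h72n_sum_ord y w₀ (hy _ hv)
      have hcard : Nat.card Gal(K/L) = p := by
        rw [IsGalois.card_aut_eq_finrank, hdeg]
      have hfact : Fact (Nat.card Gal(K/L)).Prime := ⟨by rw [hcard]; exact hp⟩
      rcases Subgroup.eq_bot_or_eq_top_of_prime_card (h72n_stab (L := L) w₀) with hbot | htop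
      · obtain ⟨y', hN, h0, hpres⟩ :=
          h72n_step (T : Set (HeightOneSpectrum (𝓞 L))) hT.classK y w₀ hw₀T hbot hsum
        have hsub : h72n_supp (L := L) (T : Set (HeightOneSpectrum (𝓞 L))) y'
            ⊆ h72n_supp (L := L) (T : Set (HeightOneSpectrum (𝓞 L))) y \ {w₀} := by
          rintro w ⟨hw, hwy'⟩
          refine ⟨⟨hw, fun hwy => hwy' (hpres w hw hwy)⟩, ?_⟩
          intro hww
          rw [Set.mem_singleton_iff] at hww
          subst hww
          exact hwy' h0
        have hfin := h72n_supp_finite (L := L) (T : Set (HeightOneSpectrum (𝓞 L))) y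
        have hlt : (h72n_supp (L := L) (T : Set (HeightOneSpectrum (𝓞 L))) y').ncard
            < (h72n_supp (L := L) (T : Set (HeightOneSpectrum (𝓞 L))) y).ncard :=
          lt_of_le_of_lt (Set.ncard_le_ncard hsub (hfin.sdiff))
            (Set.ncard_sdiff_singleton_lt_of_mem hw₀ hfin)
        obtain ⟨y'', h1, h2⟩ := ih y' (fun v hv' => by rw [hN]; exact hy v hv') (by omega)
        exact ⟨y'', h1, h2.trans hN⟩
      · exfalso
        have hall : ∀ τ : Gal(K/L), SU_pull τ w₀ = w₀ := fun τ => by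
          have : τ ∈ h72n_stab (L := L) w₀ := by rw [htop]; trivial
          exact this
        simp_rw [hall] at hsum
        rw [Finset.sum_const, Finset.card_univ, ← Nat.card_eq_fintype_card, hcard,
          nsmul_eq_mul] at hsum
        rcases mul_eq_zero.mp hsum with h | h
        · exact hp.ne_zero (by exact_mod_cast h)
        · exact hw₀y h

/-- **FI-G3.** A global norm which is a `T`-unit is the norm of a `T'`-unit. -/
theorem h72n_fiNormUnit : FINormUnit := by
  intro p hp L K _ _ _ _ _ _ hdeg T hT y hy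
  exact h72n_main p hp hdeg T hT _ y hy le_rfl

end

end Fermat.Agent.PT.Glob
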