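import Fermat.Agent.PT.Glob.FI.Asm
import Fermat.Agent.PT.Glob.FI.H33LocalGlobalU
import Fermat.Agent.PT.Glob.FI.H46Split
import Fermat.Agent.PT.Glob.FI.H67H1
import Fermat.Agent.PT.Glob.FI.H72NormUnit
import Fermat.Agent.PT.Glob.Dict.H10IndexPow
import Fermat.Agent.PT.Loc.NI.Main

/-!
# W3-PT / PT-GLOB, block GLOB-FI: the first inequality, all leaves but `FIUnitNorm` discharged

`ifaceFI_of_unitNorm : FIUnitNorm → IfaceFI`.
-/

set_option autoImplicit false

namespace Fermat.Agent.PT.Glob

/-- the local norm index theorem in Core language (GLOB-DICT + PT-LOC `NIMain`) -/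
theorem fi_localIndex : FILocalIndex :=
  h10d_fiLocalIndex_of_niMain Fermat.Agent.PT.Loc.niMain_holds

/-- **First inequality**, conditional only on `FIUnitNorm` (units are local norms at unramified
places). -/
theorem ifaceFI_of_unitNorm (h : FIUnitNorm) : IfaceFI :=
  ifaceFI_of fi_localIndex h46u_fiSplit h h67h_fiH1 h72n_fiNormUnit h33f_fiLocalGlobal

end Fermat.Agent.PT.Glob
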