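import Mathlib
import Fermat.Agent.PT.Glob.FI.MainOf
import Fermat.Agent.PT.Glob.FI.H82UnitNormFinal

/-!
# W3-PT / PT-GLOB, block GLOB-FI: the first inequality, unconditional

`ifaceFI : IfaceFI` (`Glob/Core.lean`), from helper64's assembly `ifaceFI_of_unitNorm`
(`FI/MainOf.lean`) and the last leaf `h82u_fiUnitNorm_holds : FIUnitNorm` (helper82).
-/

set_option autoImplicit false

namespace Fermat.Agent.PT.Glob

/-- **GLOB-FI: the first inequality.** -/
theorem ifaceFI : IfaceFI := ifaceFI_of_unitNorm h82u_fiUnitNorm_holds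

end Fermat.Agent.PT.Glob
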