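import Mathlib
import Fermat.Agent.PT.Glob.FI.Iface
import Fermat.Agent.PT.Units.SUnitHerbrand

/-!
# W3-PT / PT-GLOB, block GLOB-FI: assembly of the first inequality

`ifaceFI_of : FILocalIndex → FISplit → FIUnitNorm → FIH1 → FINormUnit → FILocalGlobal → IfaceFI`.

With `E_K` the `T'`-units of `K` and `E_L` the `T`-units of `L`:
* `fi_h0_eq` : `h0 (E_K) = [E_L : N E_K]` (`fi_nrm_coe`: the abstract norm is the field norm);
* `fi_h1_eq_one` : `h1 (E_K) = 1`;
* `SU_herbrand_sunits_nat` : `h0 * p = h1 * p ^ m`;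
* `fi_card_target` : the target of the residue map has `p ^ m` elements;
* `fi_normIndex_mul` : `normIndex * [E_L : E_L ∩ ELN] = p ^ m`;
* `fi_normUnits_eq`, `fi_relIndex_eq` : `[E_L ∩ ELN : N E_K] = hasseDefect`.
-/

set_option autoImplicit false
set_option linter.unusedSectionVars false

open NumberField IsDedekindDomain Module

namespace Fermat.Agent.PT.Glob

open Fermat.Agent.PT.Units Fermat.Agent.S14.HQ

section Basic

variable {L K : Type} [Field L] [NumberField L] [Field K] [NumberField K] [Algebra L K]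

/-- the two descriptions of the primes above a set of primes agree -/
theorem fi_placesAbove_eq (S : Set (HeightOneSpectrum (𝓞 L))) :
    placesAbove L K S = SU_above L K S := by
  ext w
  constructor
  · rintro ⟨v, hv, h⟩
    have : w.under (𝓞 L) = v := HeightOneSpectrum.ext h
    rw [SU_mem_above, this]
    exact hv
  · intro hw
    exact ⟨w.under (𝓞 L), hw, rfl⟩

/-- a product over a cyclic group of order `p` -/
theorem fi_prod_gal [IsGalois L K] (p : ℕ) (hdeg : finrank L K = p)
    (σ : Gal(K/L)) (hσ : ∀ τ : Gal(K/L), τ ∈ Subgroup.zpowers σ)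
    {M : Type*} [CommMonoid M] (f : Gal(K/L) → M) :
    ∏ τ : Gal(K/L), f τ = ∏ i ∈ Finset.range p, f (σ ^ i) := by
  classical
  have hord : orderOf σ = p := by
    rw [orderOf_eq_card_of_forall_mem_zpowers hσ, IsGalois.card_aut_eq_finrank, hdeg]
  have himg : Finset.image (fun i => σ ^ i) (Finset.range p) = Finset.univ := by
    ext τ
    simp only [Finset.mem_image, Finset.mem_range, Finset.mem_univ, iff_true]
    have h := hσ τ
    rw [mem_zpowers_iff_mem_range_orderOf, hord] at h
    simpa using h
  rw [← himg, Finset.prod_image]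
  intro i hi j hj hij
  rw [Finset.coe_range, Set.mem_Iio] at hi hj
  exact pow_injOn_Iio_orderOf (by rwa [Set.mem_Iio, hord]) (by rwa [Set.mem_Iio, hord]) hij

variable (S : Set (HeightOneSpectrum (𝓞 L)))

/-- the abstract norm `1 + σ + ⋯ + σ^(p-1)` on the `S`-units of `K` is the field norm -/
theorem fi_nrm_coe [IsGalois L K] (p : ℕ) (hdeg : finrank L K = p)
    (σ : Gal(K/L)) (hσ : ∀ τ : Gal(K/L), τ ∈ Subgroup.zpowers σ)
    (x : Additive ((SU_above L K S).unit K)) :
    ((((nrm (SU_galEnd (L := K) S σ) p x).toMul : (SU_above L K S).unit K) : Kˣ) : K) =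
      algebraMap L K (Algebra.norm L (((x.toMul : (SU_above L K S).unit K) : Kˣ) : K)) := by
  rw [Algebra.norm_eq_prod_automorphisms, fi_prod_gal p hdeg σ hσ, nrm_apply, toMul_sum,
    SubmonoidClass.coe_finsetProd, Units.coe_prod]
  refine Finset.prod_congr rfl (fun i _ => ?_)
  rw [SU_galEnd_iterate, SU_galEnd_coe]

end Basic

section Main

variable {L K : Type} [Field L] [NumberField L] [Field K] [NumberField K] [Algebra L K]
  [IsGalois L K]

variable (T : Finset (HeightOneSpectrum (𝓞 L)))

/-- the subgroup of the `T`-units of `L` of norms of `T'`-units of `K` -/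
noncomputable def fi_normUnits (K : Type) [Field K] [NumberField K] [Algebra L K] :
    Subgroup ((T : Set (HeightOneSpectrum (𝓞 L))).unit L) :=
  (((SU_above L K (T : Set (HeightOneSpectrum (𝓞 L)))).unit K).map
    (Units.map (Algebra.norm L : K →* L))).comap (Subgroup.subtype _)

theorem fi_mem_normUnits (b : (T : Set (HeightOneSpectrum (𝓞 L))).unit L) :
    b ∈ fi_normUnits T K ↔ ∃ y : Kˣ, y ∈ (SU_above L K (T : Set (HeightOneSpectrum (𝓞 L)))).unit K ∧
      Algebra.norm L (y : K) = ((b : Lˣ) : L) := by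
  unfold fi_normUnits
  rw [Subgroup.mem_comap, Subgroup.mem_map]
  constructor
  · rintro ⟨y, hy, h⟩
    exact ⟨y, hy, congrArg Units.val h⟩
  · rintro ⟨y, hy, h⟩
    exact ⟨y, hy, Units.ext h⟩

variable (p : ℕ) (hdeg : finrank L K = p)
  (σ : Gal(K/L)) (hσ : ∀ τ : Gal(K/L), τ ∈ Subgroup.zpowers σ)

include hdeg hσ in
/-- `Ĥ⁰` of the `T'`-units is `E_L / N E_K`. -/
theorem fi_h0_eq :
    h0 (SU_galEnd (L := K) (T : Set (HeightOneSpectrum (𝓞 L))) σ) p = (fi_normUnits T K).index := by
  rw [h0_def, ← SU_baseHom_range (T : Set (HeightOneSpectrum (𝓞 L))) σ hσ,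
    ← AddSubgroup.index_comap, ← Subgroup.index_toAddSubgroup]
  congr 1
  ext b
  rw [AddSubgroup.mem_comap, AddMonoidHom.mem_range]
  show _ ↔ Additive.toMul b ∈ fi_normUnits T K
  rw [fi_mem_normUnits]
  constructor
  · rintro ⟨x, hx⟩
    refine ⟨(x.toMul : (SU_above L K (T : Set (HeightOneSpectrum (𝓞 L)))).unit K),
      (x.toMul : (SU_above L K (T : Set (HeightOneSpectrum (𝓞 L)))).unit K).2, ?_⟩
    apply (algebraMap L K).injective
    rw [← fi_nrm_coe (T : Set (HeightOneSpectrum (𝓞 L))) p hdeg σ hσ x, hx, SU_baseHom_coe]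
  · rintro ⟨y, hy, hN⟩
    refine ⟨Additive.ofMul ⟨y, hy⟩, ?_⟩
    apply Additive.toMul.injective
    apply Subtype.ext
    apply Units.ext
    rw [fi_nrm_coe (T : Set (HeightOneSpectrum (𝓞 L))) p hdeg σ hσ, SU_baseHom_coe]
    exact congrArg (algebraMap L K) hN

include hdeg hσ in
/-- `Ĥ¹` of the `T'`-units is trivial. -/
theorem fi_h1_eq_one (hH1 : FIH1) (hp : p.Prime) (hT : Admissible L K p T) :
    h1 (SU_galEnd (L := K) (T : Set (HeightOneSpectrum (𝓞 L))) σ) p = 1 := by
  rw [h1_def, AddSubgroup.relIndex_eq_one]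
  intro x hx
  rw [AddMonoidHom.mem_ker] at hx
  have hN : Algebra.norm L
      (((x.toMul : (SU_above L K (T : Set (HeightOneSpectrum (𝓞 L)))).unit K) : Kˣ) : K) = 1 := by
    apply (algebraMap L K).injective
    rw [← fi_nrm_coe (T : Set (HeightOneSpectrum (𝓞 L))) p hdeg σ hσ x, hx, map_one]
    rfl
  have hmem : ∀ w : HeightOneSpectrum (𝓞 K),
      w ∉ placesAbove L K (T : Set (HeightOneSpectrum (𝓞 L))) → w.valuation K
        (((x.toMul : (SU_above L K (T : Set (HeightOneSpectrum (𝓞 L)))).unit K) : Kˣ) : K) = 1 := by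
    intro w hw
    rw [fi_placesAbove_eq] at hw
    exact (x.toMul : (SU_above L K (T : Set (HeightOneSpectrum (𝓞 L)))).unit K).2 w hw
  obtain ⟨z, hz, hyz⟩ := hH1 p hp L K hdeg T hT σ hσ _ hmem hN
  have hz' : z ∈ (SU_above L K (T : Set (HeightOneSpectrum (𝓞 L)))).unit K := by
    intro w hw
    rw [← fi_placesAbove_eq] at hw
    exact hz w hw
  rw [AddMonoidHom.mem_range]
  refine ⟨Additive.ofMul ⟨z, hz'⟩, ?_⟩
  rw [del_apply]
  apply Additive.toMul.injective
  apply Subtype.ext
  apply Units.ext
  rw [hyz, toMul_sub, Subgroup.coe_div, Units.val_div_eq_div_val, SU_galEnd_coe]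
  rfl

/-- the `T`-units which are local norms at the places of `T` are local norms everywhere -/
theorem fi_mem_everywhere (hUN : FIUnitNorm) (hp : p.Prime) (hdeg : finrank L K = p)
    (hT : Admissible L K p T) (b : (T : Set (HeightOneSpectrum (𝓞 L))).unit L) :
    b ∈ (everywhereLocalNorms L K).comap (Subgroup.subtype _) ↔
      ∀ v : T, (b : Lˣ) ∈ localNormSubgroup L K v.1 := by
  rw [Subgroup.mem_comap, mem_everywhereLocalNorms]
  constructor
  · intro h v
    exact h v.1
  · intro h v
    by_cases hv : v ∈ T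
    · exact h ⟨v, hv⟩
    · exact hUN p hp L K hdeg v (hT.unramified v hv) (b : Lˣ) (b.2 v hv)

/-- index of the image of a homomorphism to a product -/
theorem fi_index_mul {G ι : Type*} {P : ι → Type*} [Group G] [∀ i, Group (P i)]
    (f : G →* ((i : ι) → P i)) (Kr : Subgroup G) (h : ∀ b, b ∈ Kr ↔ ∀ i, f b i = 1) :
    f.range.index * Kr.index = Nat.card ((i : ι) → P i) := by
  have hK : Kr = f.ker := by
    ext b
    rw [h, MonoidHom.mem_ker]
    constructor
    · intro hb
      funext i
      exact hb i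
    · intro hb i
      rw [hb]
      rfl
  rw [hK, Subgroup.index_ker, Subgroup.index_mul_card]

/-- the index of the image of the residue map -/
theorem fi_normIndex_mul (hUN : FIUnitNorm) (hp : p.Prime) (hdeg : finrank L K = p)
    (hT : Admissible L K p T) :
    normIndex L K T * ((everywhereLocalNorms L K).comap
        (Subgroup.subtype ((T : Set (HeightOneSpectrum (𝓞 L))).unit L))).index =
      Nat.card ((v : T) → Lˣ ⧸ localNormSubgroup L K v.1) := by
  refine fi_index_mul (P := fun v : T => Lˣ ⧸ localNormSubgroup L K v.1) (residueMap L K T) _ ?_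
  intro b
  rw [fi_mem_everywhere T p hUN hp hdeg hT]
  refine forall_congr' (fun v => ?_)
  rw [← QuotientGroup.eq_one_iff]
  rfl

/-- norms of `T'`-units = `T`-units which are global norms -/
theorem fi_normUnits_eq (hNU : FINormUnit) (hp : p.Prime) (hdeg : finrank L K = p)
    (hT : Admissible L K p T) :
    fi_normUnits T K = (globalNorms L K).comap (Subgroup.subtype _) := by
  ext b
  rw [fi_mem_normUnits, Subgroup.mem_comap, mem_globalNorms]
  constructor
  · rintro ⟨y, -, h⟩
    exact ⟨y, h⟩
  · rintro ⟨y, h⟩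
    have hy : ∀ v : HeightOneSpectrum (𝓞 L), v ∉ T →
        v.valuation L (Algebra.norm L (y : K)) = 1 := by
      intro v hv
      have h' : Algebra.norm L (y : K) = ((b : Lˣ) : L) := h
      rw [h']
      exact b.2 v hv
    obtain ⟨y', hy', hN⟩ := hNU p hp L K hdeg T hT y hy
    refine ⟨y', ?_, hN.trans h⟩
    intro w hw
    rw [← fi_placesAbove_eq] at hw
    exact hy' w hw

/-- the defect of the Hasse norm principle, computed on `T`-units -/
theorem fi_relIndex_eq (hLG : FILocalGlobal) (hp : p.Prime) (hdeg : finrank L K = p)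
    (hT : Admissible L K p T) :
    ((globalNorms L K).comap
        (Subgroup.subtype ((T : Set (HeightOneSpectrum (𝓞 L))).unit L))).relIndex
      ((everywhereLocalNorms L K).comap (Subgroup.subtype _)) = hasseDefect L K := by
  rw [Subgroup.relIndex_comap, Subgroup.map_comap_eq, Subgroup.range_subtype, hasseDefect,
    ← Subgroup.relIndex_sup_right]
  congr 1
  apply le_antisymm
  · exact sup_le inf_le_right (globalNorms_le_everywhereLocalNorms L K)
  · intro b hb
    obtain ⟨y, hy⟩ := hLG p hp L K hdeg T hT b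
      (fun v _ => (mem_everywhereLocalNorms.1 hb) v)
    have hNy : Algebra.norm L (y : K) ≠ 0 := by
      rw [Ne, Algebra.norm_eq_zero_iff]; exact y.ne_zero
    have hg : Units.map (Algebra.norm L : K →* L) y ∈ globalNorms L K := ⟨y, rfl⟩
    have hb' : b * (Units.map (Algebra.norm L : K →* L) y)⁻¹ ∈
        (T : Set (HeightOneSpectrum (𝓞 L))).unit L ⊓ everywhereLocalNorms L K := by
      refine Subgroup.mem_inf.2 ⟨?_, (everywhereLocalNorms L K).mul_mem hb
        ((everywhereLocalNorms L K).inv_mem (globalNorms_le_everywhereLocalNorms L K hg))⟩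
      intro v hv
      have := hy v hv
      show v.valuation L ((b : L) * ((Units.map (Algebra.norm L : K →* L) y)⁻¹ : Lˣ)) = 1
      rw [Units.val_inv_eq_inv_val, ← div_eq_mul_inv]
      exact this
    have : b = (b * (Units.map (Algebra.norm L : K →* L) y)⁻¹) *
        Units.map (Algebra.norm L : K →* L) y := by
      rw [inv_mul_cancel_right]
    rw [this]
    exact Subgroup.mul_mem_sup hb' hg

/-- the target of the residue map has `p ^ m` elements -/
theorem fi_card_target (hLI : FILocalIndex) (hSp : FISplit) (hp : p.Prime) (hp3 : 3 ≤ p)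
    (hdeg : finrank L K = p) :
    Nat.card ((v : T) → Lˣ ⧸ localNormSubgroup L K v.1) =
      p ^ Nat.card {v : (T : Set (HeightOneSpectrum (𝓞 L))) // SU_g K v.1 = 1} := by
  classical
  have hidx : ∀ v : HeightOneSpectrum (𝓞 L),
      Nat.card (Lˣ ⧸ localNormSubgroup L K v) = if SU_g K v = 1 then p else 1 := by
    intro v
    rw [← Subgroup.index_eq_card]
    split_ifs with h
    · exact hLI p hp hp3 L K hdeg v h
    · have h2 : SU_g K v = p := (SU_g_eq p hp hdeg v).resolve_left h
      have : localNormSubgroup L K v = ⊤ := by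
        ext b
        simp only [Subgroup.mem_top, iff_true]
        exact hSp p hp L K hdeg v h2 b
      rw [this, Subgroup.index_top]
  rw [Nat.card_pi]
  simp only [hidx]
  rw [Finset.prod_ite, Finset.prod_const, Finset.prod_const_one, mul_one]
  congr 1
  show _ = Nat.card {v : T // SU_g K v.1 = 1}
  rw [Nat.card_eq_fintype_card, Fintype.card_subtype]

/-- **First inequality** from the leaves. -/
theorem ifaceFI_of (hLI : FILocalIndex) (hSp : FISplit) (hUN : FIUnitNorm) (hH1 : FIH1)
    (hNU : FINormUnit) (hLG : FILocalGlobal) : IfaceFI := by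
  intro p hp hp3 L K _ _ _ _ _ _ hdeg T hT
  -- a generator of the Galois group
  have hcard : Nat.card Gal(K/L) = p := by
    rw [IsGalois.card_aut_eq_finrank, hdeg]
  have hfact : Fact p.Prime := ⟨hp⟩
  have hcyc : IsCyclic Gal(K/L) := isCyclic_of_prime_card hcard
  obtain ⟨σ, hσ⟩ := hcyc.exists_generator
  have hodd : Odd (finrank L K) := by
    rw [hdeg]
    exact hp.odd_of_ne_two (by omega)
  have hunr : IsUnramifiedAtInfinitePlaces L K := IsUnramifiedAtInfinitePlaces_of_odd_finrank hodd
  -- the Herbrand quotient of the `T'`-units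
  obtain ⟨h00, -, hHQ⟩ := SU_herbrand_sunits_nat (K := L) (L := K)
    (T : Set (HeightOneSpectrum (𝓞 L))) p hdeg σ hσ
  rw [fi_h1_eq_one T p hdeg σ hσ hH1 hp hT, one_mul, fi_h0_eq T p hdeg σ hσ] at hHQ
  rw [fi_h0_eq T p hdeg σ hσ] at h00
  -- the residue map
  have hP := fi_card_target T p hLI hSp hp hp3 hdeg
  have h1 := fi_normIndex_mul T p hUN hp hdeg hT
  rw [hP] at h1
  -- norms of units inside the kernel
  have hle : fi_normUnits T K ≤ (everywhereLocalNorms L K).comap
      (Subgroup.subtype ((T : Set (HeightOneSpectrum (𝓞 L))).unit L)) := by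
    rw [fi_normUnits_eq T p hNU hp hdeg hT]
    exact Subgroup.comap_mono (globalNorms_le_everywhereLocalNorms L K)
  have h2 := Subgroup.relIndex_mul_index hle
  have h3 : (fi_normUnits T K).relIndex ((everywhereLocalNorms L K).comap
      (Subgroup.subtype ((T : Set (HeightOneSpectrum (𝓞 L))).unit L))) = hasseDefect L K := by
    rw [fi_normUnits_eq T p hNU hp hdeg hT]
    exact fi_relIndex_eq T p hLG hp hdeg hT
  rw [h3] at h2
  have hk0 : ((everywhereLocalNorms L K).comap
      (Subgroup.subtype ((T : Set (HeightOneSpectrum (𝓞 L))).unit L))).index ≠ 0 := by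
    intro h0
    rw [h0, mul_zero] at h2
    exact h00 h2.symm
  have hd0 : hasseDefect L K ≠ 0 := by
    intro h0
    rw [h0, zero_mul] at h2
    exact h00 h2.symm
  refine ⟨hd0, ?_⟩
  have h4 : normIndex L K T * ((everywhereLocalNorms L K).comap
      (Subgroup.subtype ((T : Set (HeightOneSpectrum (𝓞 L))).unit L))).index =
      p * hasseDefect L K * ((everywhereLocalNorms L K).comap
        (Subgroup.subtype ((T : Set (HeightOneSpectrum (𝓞 L))).unit L))).index := by
    rw [h1, ← hHQ, ← h2]
    ring
  exact Nat.eq_of_mul_eq_mul_right (Nat.pos_of_ne_zero hk0) h4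

end Main

end Fermat.Agent.PT.Glob
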