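import Fermat.Agent.PT.Glob.FI.Iface
import Fermat.Agent.PT.Units.SUnitHerbrand

/-!
# W3-PT / PT-GLOB, block GLOB-FI, leaf FI-G4 (helper33): `FIInertVal → FILocalGlobal`

An element of `Lˣ` which is a local norm at every place outside an admissible set `T` is a
`T`-unit times a global norm.

Proof: for `v ∉ T` choose a prime `w` of `K` above `v` and (triviality of the `T'`-class group of
`K`) an element `x` with `w(x) = exp(-1)` and trivial valuation at all other primes outside `T'`.
With `N x = ∏_τ τ x` one gets `v'(N x) = 1` for `v' ∉ T`, `v' ≠ v`, and `v(N x)^e = exp(-1)`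
(`p` primes above `v`) resp. `exp(-p)` (one prime above `v`); in the second case `v(b)` is a `p`-th
power (`FIInertVal`).  Hence a power `z_v` of `x` has `v(N z_v) = v(b)`, and `y = ∏ z_v` works.
-/

set_option autoImplicit false
set_option linter.unusedSectionVars false
set_option linter.unusedVariables false

open NumberField IsDedekindDomain

open Fermat.Agent.PT.Units

namespace Fermat.Agent.PT.Glob

section General

variable {F E : Type} [Field F] [NumberField F] [Field E] [NumberField E] [Algebra F E]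
  [IsGalois F E]

/-- the valuation of a norm at a prime of the top field. -/
theorem h33f_val_norm (w : HeightOneSpectrum (𝓞 E)) (x : E) :
    w.valuation E (algebraMap F E (Algebra.norm F x))
      = ∏ τ : Gal(E/F), (SU_pull τ w).valuation E x := by
  rw [Algebra.norm_eq_prod_automorphisms, map_prod]
  exact Finset.prod_congr rfl fun τ _ => SU_valuation_gal τ w x

/-- the norm of an element with trivial valuation above `v'` has trivial valuation at `v'`. -/
theorem h33f_val_norm_eq_one (v' : HeightOneSpectrum (𝓞 F)) (x : E)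
    (hx : ∀ w' : HeightOneSpectrum (𝓞 E), w'.under (𝓞 F) = v' → w'.valuation E x = 1) :
    v'.valuation F (Algebra.norm F x) = 1 := by
  obtain ⟨w', hw'⟩ := SU_exists_above (L := E) v'
  have h1 : w'.valuation E (algebraMap F E (Algebra.norm F x)) = 1 := by
    rw [h33f_val_norm]
    refine Finset.prod_eq_one fun τ _ => hx _ ?_
    rw [SU_pull_under, hw']
  obtain ⟨e, he, he'⟩ := SU_valuation_up w' (Algebra.norm F x)
  rw [hw'] at he'
  rw [he'] at h1
  exact SU_pow_eq_one he h1

theorem h33f_pull_one (w : HeightOneSpectrum (𝓞 E)) : SU_pull (1 : Gal(E/F)) w = w := by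
  apply HeightOneSpectrum.ext
  rw [SU_pull_asIdeal]
  have h : (SU_gR (1 : Gal(E/F)) : 𝓞 E →+* 𝓞 E) = RingHom.id _ := by
    ext r
    have := SU_gR_coe (1 : Gal(E/F)) r
    simpa using this
  rw [h, Ideal.comap_id]

theorem h33f_mem_primesOver (w : HeightOneSpectrum (𝓞 E)) :
    w.asIdeal ∈ (w.under (𝓞 F)).asIdeal.primesOver (𝓞 E) :=
  ⟨w.isPrime, ⟨rfl⟩⟩

/-- one prime above `v`: `v(N x)^e = w(x)^[E:F]`. -/
theorem h33f_val_norm_inert (w : HeightOneSpectrum (𝓞 E)) (x : E)
    (h1 : ((w.under (𝓞 F)).asIdeal.primesOver (𝓞 E)).ncard = 1) :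
    ∃ e : ℕ, e ≠ 0 ∧ (w.under (𝓞 F)).valuation F (Algebra.norm F x) ^ e
      = w.valuation E x ^ Module.finrank F E := by
  obtain ⟨e, he, he'⟩ := SU_valuation_up w (Algebra.norm F x)
  refine ⟨e, he, ?_⟩
  rw [← he', h33f_val_norm]
  have hpull : ∀ τ : Gal(E/F), SU_pull τ w = w := by
    intro τ
    obtain ⟨P, hP⟩ := Set.ncard_eq_one.1 h1
    have hw := h33f_mem_primesOver (F := F) w
    have hτ := h33f_mem_primesOver (F := F) (SU_pull τ w)
    rw [SU_pull_under] at hτ
    rw [hP, Set.mem_singleton_iff] at hw hτ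
    exact HeightOneSpectrum.ext (hτ.trans hw.symm)
  rw [Finset.prod_congr rfl fun τ _ => by rw [hpull τ], Finset.prod_const, Finset.card_univ,
    ← Nat.card_eq_fintype_card, IsGalois.card_aut_eq_finrank]

/-- `[E:F]` primes above `v`: `v(N x)^e = w(x)` if `x` has trivial valuation at the other primes
above `v`. -/
theorem h33f_val_norm_split (w : HeightOneSpectrum (𝓞 E)) (x : E)
    (h1 : ((w.under (𝓞 F)).asIdeal.primesOver (𝓞 E)).ncard = Module.finrank F E)
    (hx : ∀ w' : HeightOneSpectrum (𝓞 E), w'.under (𝓞 F) = w.under (𝓞 F) → w' ≠ w →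
      w'.valuation E x = 1) :
    ∃ e : ℕ, e ≠ 0 ∧ (w.under (𝓞 F)).valuation F (Algebra.norm F x) ^ e = w.valuation E x := by
  classical
  obtain ⟨e, he, he'⟩ := SU_valuation_up w (Algebra.norm F x)
  refine ⟨e, he, ?_⟩
  rw [← he', h33f_val_norm]
  -- the orbit map is a bijection
  let φ : Gal(E/F) → (w.under (𝓞 F)).asIdeal.primesOver (𝓞 E) := fun τ =>
    ⟨(SU_pull τ w).asIdeal, by
      have := h33f_mem_primesOver (F := F) (SU_pull τ w)
      rwa [SU_pull_under] at this⟩
  have hsurj : Function.Surjective φ := by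
    rintro ⟨Q, hQ⟩
    obtain ⟨τ, hτ⟩ := Ideal.exists_comap_galRestrict_eq (𝓞 F) F E (𝓞 E)
      (h33f_mem_primesOver (F := F) w) hQ
    refine ⟨τ, Subtype.ext ?_⟩
    exact hτ
  have hcard : Nat.card Gal(E/F) = Nat.card ((w.under (𝓞 F)).asIdeal.primesOver (𝓞 E)) := by
    rw [IsGalois.card_aut_eq_finrank, Nat.card_coe_set_eq, h1]
  have hbij := (Nat.bijective_iff_surjective_and_card φ).2 ⟨hsurj, hcard⟩
  have hne : ∀ τ : Gal(E/F), τ ≠ 1 → SU_pull τ w ≠ w := by
    intro τ hτ h
    apply hτ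
    apply hbij.1
    apply Subtype.ext
    change (SU_pull τ w).asIdeal = (SU_pull (1 : Gal(E/F)) w).asIdeal
    rw [h, h33f_pull_one]
  rw [Finset.prod_eq_single (1 : Gal(E/F))]
  · rw [h33f_pull_one]
  · intro τ _ hτ
    exact hx _ (SU_pull_under τ w) (hne τ hτ)
  · intro h
    exact absurd (Finset.mem_univ _) h

end General

section Main

theorem h33f_exp_aux (p : ℕ) (k : ℤ) :
    ((WithZero.exp (-1 : ℤ)) ^ p) ^ (-k) = WithZero.exp ((p : ℤ) * k) := by
  rw [← WithZero.exp_nsmul, ← WithZero.exp_zsmul]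
  congr 1
  simp only [smul_eq_mul, nsmul_eq_mul]
  ring

theorem h33f_exp_aux2 (a : WithZero (Multiplicative ℤ)) (ha : a ≠ 0) :
    (WithZero.exp (-1 : ℤ)) ^ (-(WithZero.log a)) = a := by
  rw [← WithZero.exp_zsmul]
  simp only [smul_eq_mul, mul_neg, mul_one, neg_neg]
  exact WithZero.exp_log ha

variable {L K : Type} [Field L] [NumberField L] [Field K] [NumberField K] [Algebra L K]

theorem h33f_norm_zpow (x : Kˣ) (n : ℤ) :
    Algebra.norm L ((x ^ n : Kˣ) : K) = (Algebra.norm L (x : K)) ^ n := by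
  have h := congrArg Units.val (map_zpow (Units.map (Algebra.norm L : K →* L)) x n)
  rw [Units.val_zpow_eq_zpow_val] at h
  exact h

theorem h33f_norm_prod {ι : Type*} (s : Finset ι) (z : ι → Kˣ) :
    Algebra.norm L ((∏ i ∈ s, z i : Kˣ) : K) = ∏ i ∈ s, Algebra.norm L ((z i : Kˣ) : K) := by
  rw [Units.coe_prod, map_prod]

theorem h33f_not_mem_placesAbove (T : Set (HeightOneSpectrum (𝓞 L)))
    (w : HeightOneSpectrum (𝓞 K)) (hw : w.under (𝓞 L) ∉ T) : w ∉ placesAbove L K T := by
  rintro ⟨v, hv, hwv⟩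
  apply hw
  have h : w.under (𝓞 L) = v := HeightOneSpectrum.ext hwv
  rw [h]
  exact hv

variable [IsGalois L K]

/-- the local building block: an element of `Kˣ` whose norm has the valuation of `b` at `v` and
trivial valuation at the other places outside `T`. -/
theorem h33f_exists_local (hIV : FIInertVal) (p : ℕ) (hp : p.Prime)
    (hdeg : Module.finrank L K = p) (T : Finset (HeightOneSpectrum (𝓞 L)))
    (hT : Admissible L K p T) (b : Lˣ) (v : HeightOneSpectrum (𝓞 L)) (hv : v ∉ T)
    (hb : IsLocalNormAt L K v b) :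
    ∃ z : Kˣ, v.valuation L (Algebra.norm L (z : K)) = v.valuation L (b : L) ∧
      ∀ v' : HeightOneSpectrum (𝓞 L), v' ∉ T → v' ≠ v →
        v'.valuation L (Algebra.norm L (z : K)) = 1 := by
  obtain ⟨w, hw⟩ := SU_exists_above (L := K) v
  have hwT : w ∉ placesAbove L K (T : Set (HeightOneSpectrum (𝓞 L))) :=
    h33f_not_mem_placesAbove _ w (by rw [hw]; exact hv)
  obtain ⟨x, hx1, hx2⟩ := hT.classK w hwT
  have haway : ∀ v' : HeightOneSpectrum (𝓞 L), v' ∉ T → v' ≠ v →
      v'.valuation L (Algebra.norm L (x : K)) = 1 := by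
    intro v' hv' hne
    apply h33f_val_norm_eq_one
    intro w' hw'
    apply hx2 w' (h33f_not_mem_placesAbove _ w' (by rw [hw']; exact hv'))
    rintro rfl
    exact hne (hw'.symm.trans hw)
  have key : ∃ (e : ℕ) (j : ℤ),
      (v.valuation L (Algebra.norm L (x : K)) ^ e) ^ j = v.valuation L (b : L) := by
    rcases SU_g_eq (L := K) p hp hdeg v with hg | hg
    · unfold SU_g at hg
      obtain ⟨e, he, hval⟩ := h33f_val_norm_inert (F := L) w (x : K) (by rw [hw]; exact hg)
      rw [hw, hx1, hdeg] at hval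
      obtain ⟨k, hk⟩ := hIV p hp L K hdeg v (hT.unramified v hv) hg b hb
      refine ⟨e, -k, ?_⟩
      rw [hval, hk]
      exact h33f_exp_aux p k
    · unfold SU_g at hg
      obtain ⟨e, he, hval⟩ := h33f_val_norm_split (F := L) w (x : K)
        (by rw [hw, hdeg]; exact hg)
        (fun w' hw' hne => hx2 w' (h33f_not_mem_placesAbove _ w'
          (by rw [hw', hw]; exact hv)) hne)
      rw [hw, hx1] at hval
      have hb0 : v.valuation L (b : L) ≠ 0 := (Valuation.ne_zero_iff _).2 b.ne_zero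
      refine ⟨e, -(WithZero.log (v.valuation L (b : L))), ?_⟩
      rw [hval]
      exact h33f_exp_aux2 _ hb0
  obtain ⟨e, j, hej⟩ := key
  refine ⟨x ^ ((e : ℤ) * j), ?_, ?_⟩
  · rw [h33f_norm_zpow, map_zpow₀, zpow_mul, zpow_natCast]
    exact hej
  · intro v' hv' hne
    rw [h33f_norm_zpow, map_zpow₀, haway v' hv' hne, one_zpow]

/-- **FI-G4**: local norms outside `T` are `T`-units times global norms. -/
theorem h33f_fiLocalGlobal_of (hIV : FIInertVal) : FILocalGlobal := by
  classical
  intro p hp L K _ _ _ _ _ _ hdeg T hT b hb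
  have hfin : {v : HeightOneSpectrum (𝓞 L) | v.valuation L (b : L) ≠ 1}.Finite := by
    have h1 := HeightOneSpectrum.Support.finite (𝓞 L) (b : L)
    have h2 := HeightOneSpectrum.Support.finite (𝓞 L) ((b : L)⁻¹)
    refine (h1.union h2).subset ?_
    intro v hv
    have hb0 : v.valuation L (b : L) ≠ 0 := (Valuation.ne_zero_iff _).2 b.ne_zero
    rcases lt_or_gt_of_ne hv with h | h
    · right
      change 1 < v.valuation L ((b : L)⁻¹)
      rw [map_inv₀]
      exact (one_lt_inv₀ (pos_iff_ne_zero.2 hb0)).2 h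
    · left
      exact h
  have hloc : ∀ v : HeightOneSpectrum (𝓞 L), v ∉ T →
      ∃ z : Kˣ, v.valuation L (Algebra.norm L (z : K)) = v.valuation L (b : L) ∧
        ∀ v' : HeightOneSpectrum (𝓞 L), v' ∉ T → v' ≠ v →
          v'.valuation L (Algebra.norm L (z : K)) = 1 :=
    fun v hv => h33f_exists_local hIV p hp hdeg T hT b v hv (hb v hv)
  choose! z hz using hloc
  refine ⟨∏ v ∈ hfin.toFinset.filter (fun v => v ∉ T), z v, fun v' hv' => ?_⟩
  rw [map_div₀, h33f_norm_prod, map_prod]
  by_cases hv'S : v' ∈ hfin.toFinset.filter (fun v => v ∉ T)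
  · rw [Finset.prod_eq_single_of_mem v' hv'S
      (fun v hv hne => (hz v (Finset.mem_filter.1 hv).2).2 v' hv' (Ne.symm hne)),
      (hz v' hv').1]
    exact div_self ((Valuation.ne_zero_iff _).2 b.ne_zero)
  · have h1 : v'.valuation L (b : L) = 1 := by
      by_contra h
      exact hv'S (Finset.mem_filter.2 ⟨hfin.mem_toFinset.2 h, hv'⟩)
    rw [Finset.prod_eq_one (fun v hv => (hz v (Finset.mem_filter.1 hv).2).2 v' hv'
      (fun h => hv'S (h ▸ hv))), h1, div_one]

end Main

end Fermat.Agent.PT.Glob
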