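import Mathlib
import Fermat.Agent.PT.Glob.Core
import Fermat.Agent.PT.Glob.FI.Iface
import Fermat.Agent.PT.Glob.FI.H46Unr1
import Fermat.Agent.PT.Glob.FI.H46NormQuot

/-!
# W3-PT / PT-GLOB / FI-L3 : `FIUnitNorm` (helper46)

`K / L` Galois of prime degree `p`, `v` a finite place of `L` unramified in `K`
(`v ∣ p` allowed).  Every `b ∈ Lˣ` with `v b = 1` is a local norm at `v`.

* split case (`p` primes above `v`): `h46u_split_top`;
* inert case (`v 𝓞_K` prime): the norm and the trace of the residue extension are onto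
  (`h46u_exists_norm`, `h46u_exists_trace`), and successive approximation with
  `N (1 + x t) ≡ 1 + x Tr t mod x ^ 2` (`h46u_norm_step`).
-/

set_option autoImplicit false

open NumberField IsDedekindDomain
open scoped Pointwise

namespace Fermat.Agent.PT.Glob

noncomputable section

section Inert

variable {L K : Type} [Field L] [NumberField L] [Field K] [NumberField K] [Algebra L K]
  [IsGalois L K]

/-- inert case: `v 𝓞_K` is the unique prime above `v`. -/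
lemma h46u_map_eq (v : HeightOneSpectrum (𝓞 L)) (he : v.asIdeal.ramificationIdxIn (𝓞 K) = 1)
    (hg : (v.asIdeal.primesOver (𝓞 K)).ncard = 1) (P : Ideal (𝓞 K)) [hPp : P.IsPrime]
    [hPv : P.LiesOver v.asIdeal] :
    Ideal.map (algebraMap (𝓞 L) (𝓞 K)) v.asIdeal = P := by
  have hI : Ideal.map (algebraMap (𝓞 L) (𝓞 K)) v.asIdeal ≠ ⊥ :=
    Ideal.map_ne_bot_of_ne_bot v.ne_bot
  have hPne : P ≠ ⊥ := Ideal.ne_bot_of_liesOver_of_ne_bot v.ne_bot P
  have hPm : P.IsMaximal := hPp.isMaximal hPne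
  obtain ⟨Q, hPQ, hIQ⟩ := Ideal.eq_prime_pow_mul_coprime hI P
  rw [← Ideal.IsDedekindDomain.ramificationIdx'_eq_normalizedFactors_count hI hPp hPne,
    h46u_ramIdx' v P, he, pow_one] at hIQ
  have hQ : Q = ⊤ := by
    by_contra hQ
    obtain ⟨M, hM, hQM⟩ := Ideal.exists_le_maximal Q hQ
    have hIM : Ideal.map (algebraMap (𝓞 L) (𝓞 K)) v.asIdeal ≤ M := by
      rw [hIQ]
      exact Ideal.mul_le_right.trans hQM
    have hMv : M.LiesOver v.asIdeal := by
      constructor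
      have h1 : v.asIdeal ≤ Ideal.comap (algebraMap (𝓞 L) (𝓞 K)) M :=
        Ideal.map_le_iff_le_comap.1 hIM
      have h2 : Ideal.comap (algebraMap (𝓞 L) (𝓞 K)) M ≠ ⊤ :=
        Ideal.comap_ne_top _ hM.ne_top
      exact v.isMaximal.eq_of_le h2 h1
    have hMP : M = P := by
      obtain ⟨P₀, hP₀⟩ := Set.ncard_eq_one.1 hg
      have h1 : M ∈ v.asIdeal.primesOver (𝓞 K) := ⟨hM.isPrime, hMv⟩
      have h2 : P ∈ v.asIdeal.primesOver (𝓞 K) := ⟨hPp, hPv⟩
      rw [hP₀] at h1 h2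
      exact h1.trans h2.symm
    have h3 : P ⊔ Q ≤ P := sup_le le_rfl (hMP ▸ hQM)
    rw [hPQ] at h3
    exact hPm.ne_top (top_le_iff.1 h3)
  rw [hIQ, hQ, Ideal.mul_top]

/-- inert case: `v 𝓞_K` is a maximal ideal. -/
lemma h46u_map_isMaximal (v : HeightOneSpectrum (𝓞 L))
    (he : v.asIdeal.ramificationIdxIn (𝓞 K) = 1)
    (hg : (v.asIdeal.primesOver (𝓞 K)).ncard = 1) :
    (Ideal.map (algebraMap (𝓞 L) (𝓞 K)) v.asIdeal).IsMaximal := by
  have := v.isMaximal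
  obtain ⟨P, hP, hPv⟩ :=
    Ideal.exists_maximal_ideal_liesOver_of_isIntegral (S := 𝓞 K) v.asIdeal
  have hPp := hP.isPrime
  rw [h46u_map_eq v he hg P]
  exact hP

attribute [local instance] Ideal.Quotient.field

/-- inert case: the norm is onto modulo `v`. -/
lemma h46u_exists_norm (v : HeightOneSpectrum (𝓞 L))
    (he : v.asIdeal.ramificationIdxIn (𝓞 K) = 1)
    (hg : (v.asIdeal.primesOver (𝓞 K)).ncard = 1) (b₀ : 𝓞 L) :
    ∃ y : 𝓞 K, Algebra.intNorm (𝓞 L) (𝓞 K) y - b₀ ∈ v.asIdeal := by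
  have := v.isMaximal
  have hmax := h46u_map_isMaximal (K := K) v he hg
  have hfin : Finite (𝓞 K ⧸ Ideal.map (algebraMap (𝓞 L) (𝓞 K)) v.asIdeal) :=
    Ideal.finiteQuotientOfFreeOfNeBot _ (Ideal.map_ne_bot_of_ne_bot v.ne_bot)
  obtain ⟨y', hy'⟩ := FiniteField.norm_surjective (𝓞 L ⧸ v.asIdeal)
    (𝓞 K ⧸ Ideal.map (algebraMap (𝓞 L) (𝓞 K)) v.asIdeal) (Ideal.Quotient.mk _ b₀)
  obtain ⟨y, rfl⟩ := Ideal.Quotient.mk_surjective y'
  refine ⟨y, ?_⟩
  rw [h46u_norm_quotient_eq] at hy'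
  exact Ideal.Quotient.eq.1 hy'

/-- inert case: the trace is onto modulo `v`. -/
lemma h46u_exists_trace (v : HeightOneSpectrum (𝓞 L))
    (he : v.asIdeal.ramificationIdxIn (𝓞 K) = 1)
    (hg : (v.asIdeal.primesOver (𝓞 K)).ncard = 1) :
    ∃ t : 𝓞 K, Algebra.intTrace (𝓞 L) (𝓞 K) t - 1 ∈ v.asIdeal := by
  have := v.isMaximal
  have hmax := h46u_map_isMaximal (K := K) v he hg
  have hfinL : Finite (𝓞 L ⧸ v.asIdeal) := Ideal.finiteQuotientOfFreeOfNeBot _ v.ne_bot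
  have hfin : Finite (𝓞 K ⧸ Ideal.map (algebraMap (𝓞 L) (𝓞 K)) v.asIdeal) :=
    Ideal.finiteQuotientOfFreeOfNeBot _ (Ideal.map_ne_bot_of_ne_bot v.ne_bot)
  have hfd : FiniteDimensional (𝓞 L ⧸ v.asIdeal)
      (𝓞 K ⧸ Ideal.map (algebraMap (𝓞 L) (𝓞 K)) v.asIdeal) := Module.Finite.of_finite
  obtain ⟨t', ht'⟩ := Algebra.trace_surjective (𝓞 L ⧸ v.asIdeal)
    (𝓞 K ⧸ Ideal.map (algebraMap (𝓞 L) (𝓞 K)) v.asIdeal) (Ideal.Quotient.mk _ 1)
  obtain ⟨t, rfl⟩ := Ideal.Quotient.mk_surjective t'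
  refine ⟨t, ?_⟩
  rw [Algebra.trace_quotient_eq_of_isDedekindDomain] at ht'
  exact Ideal.Quotient.eq.1 ht'

end Inert

section Step

/-- expansion of a product `∏ (1 + x a_i)` modulo `x ^ 2`. -/
lemma h46u_prod_one_add {R ι : Type*} [CommRing R] (s : Finset ι) (x : R) (a : ι → R) :
    ∃ r : R, ∏ i ∈ s, (1 + x * a i) = 1 + x * ∑ i ∈ s, a i + x ^ 2 * r := by
  classical
  induction s using Finset.induction_on with
  | empty => exact ⟨0, by simp⟩
  | insert i s hi ih =>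
    obtain ⟨r, hr⟩ := ih
    refine ⟨a i * ∑ j ∈ s, a j + r + x * a i * r, ?_⟩
    rw [Finset.prod_insert hi, Finset.sum_insert hi, hr]
    ring

/-- discreteness: a value `< exp k` is `≤ exp (k - 1)`. -/
lemma h46u_le_exp_pred {x : WithZero (Multiplicative ℤ)} {k : ℤ} (hx : x < WithZero.exp k) :
    x ≤ WithZero.exp (k - 1) := by
  rcases eq_or_ne x 0 with rfl | h0
  · exact zero_le
  · obtain ⟨m, hm⟩ := WithZero.ne_zero_iff_exists.1 h0
    have hx' : x = WithZero.exp (Multiplicative.toAdd m) := hm.symm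
    rw [hx'] at hx ⊢
    rw [WithZero.exp_lt_exp] at hx
    rw [WithZero.exp_le_exp]
    omega

variable {L K : Type} [Field L] [NumberField L] [Field K] [NumberField K] [Algebra L K]
  [IsGalois L K]

/-- the integral trace is the sum of the conjugates. -/
lemma h46u_intTrace_eq_sum (x : 𝓞 K) :
    algebraMap (𝓞 L) (𝓞 K) (Algebra.intTrace (𝓞 L) (𝓞 K) x) = ∑ σ : Gal(K/L), σ • x := by
  apply RingOfIntegers.ext
  have h1 : ((algebraMap (𝓞 L) (𝓞 K) (Algebra.intTrace (𝓞 L) (𝓞 K) x) : 𝓞 K) : K)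
      = algebraMap L K (Algebra.trace L K (x : K)) := by
    rw [← Algebra.algebraMap_intTrace (A := 𝓞 L) (K := L) (L := K) (B := 𝓞 K),
      ← IsScalarTower.algebraMap_apply (𝓞 L) L K]
    exact (IsScalarTower.algebraMap_apply (𝓞 L) (𝓞 K) K _).symm
  have h2 : ((∑ σ : Gal(K/L), σ • x : 𝓞 K) : K) = ∑ σ : Gal(K/L), ((σ • x : 𝓞 K) : K) :=
    map_sum (algebraMap (𝓞 K) K) _ _
  rw [h1, h2, trace_eq_sum_automorphisms]
  rfl

/-- `intValuation` at a prime above an unramified `v`. -/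
lemma h46u_intVal_up (v : HeightOneSpectrum (𝓞 L)) (he : v.asIdeal.ramificationIdxIn (𝓞 K) = 1)
    (w : HeightOneSpectrum (𝓞 K)) [w.asIdeal.LiesOver v.asIdeal] (z : 𝓞 L) :
    w.intValuation (algebraMap (𝓞 L) (𝓞 K) z) = v.intValuation z := by
  have h := h46u_val_up v w (algebraMap (𝓞 L) L z)
  rw [he, pow_one, ← IsScalarTower.algebraMap_apply (𝓞 L) L K,
    IsScalarTower.algebraMap_apply (𝓞 L) (𝓞 K) K, HeightOneSpectrum.valuation_of_algebraMap,
    HeightOneSpectrum.valuation_of_algebraMap] at h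
  exact h

/-- `N (1 + x t) ≡ 1 + x Tr t` modulo `x ^ 2`, at an unramified place. -/
lemma h46u_norm_step (v : HeightOneSpectrum (𝓞 L)) (he : v.asIdeal.ramificationIdxIn (𝓞 K) = 1)
    (x₀ : 𝓞 L) (t : 𝓞 K) :
    v.intValuation (Algebra.intNorm (𝓞 L) (𝓞 K) (1 + algebraMap (𝓞 L) (𝓞 K) x₀ * t) - 1
      - x₀ * Algebra.intTrace (𝓞 L) (𝓞 K) t) ≤ v.intValuation x₀ ^ 2 := by
  have := v.isMaximal
  obtain ⟨P, hP, hPv⟩ :=
    Ideal.exists_maximal_ideal_liesOver_of_isIntegral (S := 𝓞 K) v.asIdeal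
  have hPne : P ≠ ⊥ := Ideal.ne_bot_of_liesOver_of_ne_bot v.ne_bot P
  let w : HeightOneSpectrum (𝓞 K) := ⟨P, hP.isPrime, hPne⟩
  have hwv : w.asIdeal.LiesOver v.asIdeal := hPv
  obtain ⟨r, hr⟩ := h46u_prod_one_add (Finset.univ : Finset Gal(K/L))
    (algebraMap (𝓞 L) (𝓞 K) x₀) (fun σ => σ • t)
  have hsmul : ∀ σ : Gal(K/L), σ • (1 + algebraMap (𝓞 L) (𝓞 K) x₀ * t)
      = 1 + algebraMap (𝓞 L) (𝓞 K) x₀ * σ • t := by
    intro σ
    rw [smul_add, smul_one, smul_mul', smul_algebraMap]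
  have key : algebraMap (𝓞 L) (𝓞 K)
      (Algebra.intNorm (𝓞 L) (𝓞 K) (1 + algebraMap (𝓞 L) (𝓞 K) x₀ * t) - 1
        - x₀ * Algebra.intTrace (𝓞 L) (𝓞 K) t) = algebraMap (𝓞 L) (𝓞 K) x₀ ^ 2 * r := by
    rw [map_sub, map_sub, map_one, map_mul, h46u_intNorm_eq_prod, h46u_intTrace_eq_sum]
    simp only [hsmul]
    rw [hr]
    ring
  rw [← h46u_intVal_up v he w, key, map_mul, map_pow, h46u_intVal_up v he w]
  calc v.intValuation x₀ ^ 2 * w.intValuation r
      ≤ v.intValuation x₀ ^ 2 * 1 := mul_le_mul' le_rfl (w.intValuation_le_one r)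
    _ = _ := mul_one _

/-- inert case: one approximation step. -/
lemma h46u_inert_step (v : HeightOneSpectrum (𝓞 L))
    (he : v.asIdeal.ramificationIdxIn (𝓞 K) = 1)
    (hg : (v.asIdeal.primesOver (𝓞 K)).ncard = 1) (d : Lˣ) (n : ℕ)
    (hd : v.valuation L ((d : L) - 1) ≤ WithZero.exp (-((n : ℤ) + 1))) :
    ∃ z : Kˣ, NormApprox L K v (n + 1) d z := by
  have hlt1 : (WithZero.exp (-((n : ℤ) + 1)) : WithZero (Multiplicative ℤ)) < 1 :=
    exp_neg_succ_lt_one n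
  have hx1 : v.valuation L ((d : L) - 1) ≤ 1 := hd.trans hlt1.le
  obtain ⟨x₀, hx₀⟩ := v.exists_valuation_sub_lt_of_integer hx1
    (Units.mk0 (WithZero.exp (-((n : ℤ) + 1))) WithZero.exp_ne_zero)
  rw [Units.val_mk0] at hx₀
  have hx₀' : v.valuation L (algebraMap (𝓞 L) L x₀ - ((d : L) - 1)) ≤
      WithZero.exp (-((n : ℤ) + 1) - 1) := h46u_le_exp_pred hx₀
  have hvx₀' : v.valuation L (algebraMap (𝓞 L) L x₀) ≤ WithZero.exp (-((n : ℤ) + 1)) := by
    have e : algebraMap (𝓞 L) L x₀ = (algebraMap (𝓞 L) L x₀ - ((d : L) - 1)) + ((d : L) - 1) := by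
      ring
    rw [e]
    exact (Valuation.map_add_le_max' _ _ _).trans (max_le hx₀.le hd)
  have hvx₀ : v.intValuation x₀ ≤ WithZero.exp (-((n : ℤ) + 1)) := by
    rw [← HeightOneSpectrum.valuation_of_algebraMap (K := L)]
    exact hvx₀'
  obtain ⟨t, ht⟩ := h46u_exists_trace (K := K) v he hg
  have h1 := h46u_norm_step v he x₀ t
  have hvd : v.valuation L (d : L) = WithZero.exp 0 := by
    have e : (d : L) = 1 + ((d : L) - 1) := by ring
    rw [e, Valuation.map_one_add_of_lt (v := v.valuation L) (hd.trans_lt hlt1),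
      WithZero.exp_zero]
  refine h46u_normApprox_of_int v d (1 + algebraMap (𝓞 L) (𝓞 K) x₀ * t) 0 (n + 1) hvd ?_
  have e : ((Algebra.intNorm (𝓞 L) (𝓞 K) (1 + algebraMap (𝓞 L) (𝓞 K) x₀ * t) : 𝓞 L) : L)
      - (d : L) =
      algebraMap (𝓞 L) L (Algebra.intNorm (𝓞 L) (𝓞 K) (1 + algebraMap (𝓞 L) (𝓞 K) x₀ * t) - 1
        - x₀ * Algebra.intTrace (𝓞 L) (𝓞 K) t)
      + algebraMap (𝓞 L) L (x₀ * (Algebra.intTrace (𝓞 L) (𝓞 K) t - 1))
      + (algebraMap (𝓞 L) L x₀ - ((d : L) - 1)) := by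
    simp only [map_sub, map_mul, map_one]
    ring
  rw [e]
  have hbound : (WithZero.exp (-((n : ℤ) + 1) - 1) : WithZero (Multiplicative ℤ))
      = WithZero.exp (0 - (((n + 1 : ℕ) : ℤ) + 1)) := by
    congr 1
  rw [← hbound]
  have hA : v.valuation L (algebraMap (𝓞 L) L
      (Algebra.intNorm (𝓞 L) (𝓞 K) (1 + algebraMap (𝓞 L) (𝓞 K) x₀ * t) - 1
        - x₀ * Algebra.intTrace (𝓞 L) (𝓞 K) t)) ≤ WithZero.exp (-((n : ℤ) + 1) - 1) := by
    rw [HeightOneSpectrum.valuation_of_algebraMap]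
    refine h1.trans ?_
    calc v.intValuation x₀ ^ 2 ≤ (WithZero.exp (-((n : ℤ) + 1))) ^ 2 := pow_le_pow_left' hvx₀ 2
      _ ≤ WithZero.exp (-((n : ℤ) + 1) - 1) := by
        rw [← WithZero.exp_nsmul, WithZero.exp_le_exp]
        simp only [nsmul_eq_mul]
        push_cast
        nlinarith
  have hB : v.valuation L (algebraMap (𝓞 L) L
      (x₀ * (Algebra.intTrace (𝓞 L) (𝓞 K) t - 1))) ≤ WithZero.exp (-((n : ℤ) + 1) - 1) := by
    rw [HeightOneSpectrum.valuation_of_algebraMap, map_mul]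
    have h2 : v.intValuation (Algebra.intTrace (𝓞 L) (𝓞 K) t - 1) ≤ WithZero.exp (-1 : ℤ) :=
      h46u_le_exp_neg_one ((v.intValuation_lt_one_iff_mem _).2 ht)
    calc v.intValuation x₀ * v.intValuation (Algebra.intTrace (𝓞 L) (𝓞 K) t - 1)
        ≤ WithZero.exp (-((n : ℤ) + 1)) * WithZero.exp (-1 : ℤ) := mul_le_mul' hvx₀ h2
      _ = WithZero.exp (-((n : ℤ) + 1) - 1) := by
        rw [← WithZero.exp_add]
        congr 1
  exact (Valuation.map_add_le_max' _ _ _).trans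
    (max_le ((Valuation.map_add_le_max' _ _ _).trans (max_le hA hB)) hx₀')

/-- inert case: units are local norms. -/
theorem h46u_inert_unit (v : HeightOneSpectrum (𝓞 L))
    (he : v.asIdeal.ramificationIdxIn (𝓞 K) = 1)
    (hg : (v.asIdeal.primesOver (𝓞 K)).ncard = 1) (b : Lˣ)
    (hb : v.valuation L (b : L) = 1) : IsLocalNormAt L K v b := by
  intro n
  induction n with
  | zero =>
    obtain ⟨b₀, hb₀⟩ := v.exists_valuation_sub_lt_of_integer (x := (b : L)) hb.le 1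
    rw [Units.val_one] at hb₀
    obtain ⟨y, hy⟩ := h46u_exists_norm (K := K) v he hg b₀
    have h1 : v.valuation L (algebraMap (𝓞 L) L (Algebra.intNorm (𝓞 L) (𝓞 K) y - b₀)) < 1 :=
      (v.valuation_lt_one_iff_mem _).2 hy
    have h2 : v.valuation L (((Algebra.intNorm (𝓞 L) (𝓞 K) y : 𝓞 L) : L) - (b : L)) < 1 := by
      have e : ((Algebra.intNorm (𝓞 L) (𝓞 K) y : 𝓞 L) : L) - (b : L)
          = algebraMap (𝓞 L) L (Algebra.intNorm (𝓞 L) (𝓞 K) y - b₀)
            + (algebraMap (𝓞 L) L b₀ - (b : L)) := by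
        rw [map_sub]
        ring
      rw [e]
      exact (Valuation.map_add_le_max' _ _ _).trans_lt (max_lt h1 hb₀)
    refine h46u_normApprox_of_int v b y 0 0 (by rw [hb, WithZero.exp_zero]) ?_
    have h3 := h46u_le_exp_neg_one h2
    refine h3.trans (le_of_eq ?_)
    congr 1
  | succ n ih =>
    obtain ⟨y, hy⟩ := ih
    have hN0 : Algebra.norm L (y : K) ≠ 0 := by
      rw [Ne, Algebra.norm_eq_zero_iff]
      exact y.ne_zero
    have hd : v.valuation L (((b / Units.mk0 _ hN0 : Lˣ) : L) - 1) ≤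
        WithZero.exp (-((n : ℤ) + 1)) := by
      rw [Units.val_div_eq_div_val]
      exact hy
    obtain ⟨z, hz⟩ := h46u_inert_step (K := K) v he hg (b / Units.mk0 _ hN0) n hd
    refine ⟨y * z, ?_⟩
    unfold NormApprox at hz ⊢
    have hz0 : Algebra.norm L (z : K) ≠ 0 := by
      rw [Ne, Algebra.norm_eq_zero_iff]
      exact z.ne_zero
    have e : (b : L) / Algebra.norm L ((y * z : Kˣ) : K)
        = ((b / Units.mk0 _ hN0 : Lˣ) : L) / Algebra.norm L (z : K) := by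
      rw [Units.val_mul, map_mul, Units.val_div_eq_div_val, Units.val_mk0]
      field_simp
    rw [e]
    exact hz

end Step

/-- **FI-L3.** -/
theorem h46u_fiUnitNorm : FIUnitNorm := by
  intro p hp L K _ _ _ _ _ _ hdeg v he b hb
  by_cases hg : (v.asIdeal.primesOver (𝓞 K)).ncard = 1
  · exact h46u_inert_unit v he hg b hb
  · have h := h46u_split_top p hp hdeg v hg
    have hb' : b ∈ localNormSubgroup L K v := by
      rw [h]
      exact Subgroup.mem_top b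
    exact hb'

end

end Fermat.Agent.PT.Glob
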